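import Mathlib

/-!
# S16: the Eisenstein coefficient system `σ'(k) = Σ_{d ∣ k, p ∤ d} d`

Pure arithmetic (Mathlib only): `eisCoeff p k = σ₁(k) − p·σ₁(k/p)` (second term only if `p ∣ k`),
its description as the sum of the divisors prime to `p`, and the Hecke recursions
(`eisCoeff_one`, `eisCoeff_mul_self`, `eisCoeff_hecke`) which say that `Σ σ'(k) q^k` is a formal
eigenvector with eigenvalues `1 + ℓ` for `T_ℓ` (`ℓ ≠ p`) and `1` for `U_p`.
-/

set_option autoImplicit false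
open ArithmeticFunction

namespace Fermat.Agent.S16.EisCoeff

/-- The Hecke relation for the sum-of-divisors function. -/
theorem sigma_hecke (ℓ : ℕ) (hℓ : ℓ.Prime) (k : ℕ) (hk : 1 ≤ k) :
    (sigma 1 (k * ℓ) : ℤ) + (if ℓ ∣ k then (ℓ : ℤ) * (sigma 1 (k / ℓ) : ℤ) else 0) =
      (1 + (ℓ : ℤ)) * (sigma 1 k : ℤ) := by
  obtain ⟨b, m, hm, rfl⟩ := Nat.exists_eq_pow_mul_and_not_dvd (by omega : k ≠ 0) ℓ hℓ.ne_one
  have hcop : ∀ c : ℕ, Nat.Coprime (ℓ ^ c) m := fun c =>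
    Nat.Coprime.pow_left c ((Nat.Prime.coprime_iff_not_dvd hℓ).mpr hm)
  have hσ : ∀ c : ℕ, (sigma 1 (ℓ ^ c * m) : ℤ) = (∑ i ∈ Finset.range (c + 1), (ℓ : ℤ) ^ i) * (sigma 1 m : ℤ) := by
    intro c
    rw [isMultiplicative_sigma.map_mul_of_coprime (hcop c), sigma_one_apply_prime_pow hℓ]
    push_cast
    rfl
  have hgeom : ∀ c : ℕ, (∑ i ∈ Finset.range c, (ℓ : ℤ) ^ i) * ((ℓ : ℤ) - 1) = (ℓ : ℤ) ^ c - 1 :=
    fun c => geom_sum_mul _ _
  have hℓ1 : ((ℓ : ℤ) - 1) ≠ 0 := by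
    have := hℓ.one_lt
    intro h
    have : (ℓ : ℤ) = 1 := by linarith
    exact_mod_cast hℓ.ne_one (by exact_mod_cast this)
  have e1 : ℓ ^ b * m * ℓ = ℓ ^ (b + 1) * m := by ring
  rw [e1, hσ (b + 1), hσ b]
  rcases Nat.eq_zero_or_pos b with rfl | hb
  · have hnd : ¬ ℓ ∣ ℓ ^ 0 * m := by simpa using hm
    rw [if_neg hnd, add_zero]
    simp [Finset.sum_range_succ]
  · have hd : ℓ ∣ ℓ ^ b * m := Dvd.dvd.mul_right (dvd_pow_self ℓ hb.ne') m
    have e2 : ℓ ^ b * m / ℓ = ℓ ^ (b - 1) * m := by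
      obtain ⟨c, rfl⟩ : ∃ c, b = c + 1 := ⟨b - 1, by omega⟩
      rw [pow_succ, Nat.add_sub_cancel, mul_assoc, mul_comm ℓ m, ← mul_assoc,
        Nat.mul_div_cancel _ hℓ.pos]
    rw [if_pos hd, e2, hσ (b - 1)]
    have hb' : b - 1 + 1 = b := by omega
    rw [hb']
    apply mul_right_cancel₀ hℓ1
    have g1 := hgeom (b + 1 + 1)
    have g2 := hgeom b
    have g3 := hgeom (b + 1)
    have : ((∑ i ∈ Finset.range (b + 1 + 1), (ℓ : ℤ) ^ i) * (sigma 1 m : ℤ) +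
        (ℓ : ℤ) * ((∑ i ∈ Finset.range b, (ℓ : ℤ) ^ i) * (sigma 1 m : ℤ))) * ((ℓ : ℤ) - 1) =
        ((∑ i ∈ Finset.range (b + 1 + 1), (ℓ : ℤ) ^ i) * ((ℓ : ℤ) - 1)) * (sigma 1 m : ℤ) +
        (ℓ : ℤ) * (((∑ i ∈ Finset.range b, (ℓ : ℤ) ^ i) * ((ℓ : ℤ) - 1)) * (sigma 1 m : ℤ)) := by ring
    rw [this, g1, g2]
    have : (1 + (ℓ : ℤ)) * ((∑ i ∈ Finset.range (b + 1), (ℓ : ℤ) ^ i) * (sigma 1 m : ℤ)) * ((ℓ : ℤ) - 1) =
        (1 + (ℓ : ℤ)) * (((∑ i ∈ Finset.range (b + 1), (ℓ : ℤ) ^ i) * ((ℓ : ℤ) - 1)) * (sigma 1 m : ℤ)) := by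
      ring
    rw [this, g3]
    ring


/-- `σ'(k) = σ(k) − p·σ(k/p)`: the sum of the divisors of `k` that are prime to `p`. -/
def eisCoeff (p k : ℕ) : ℤ :=
  (sigma 1 k : ℤ) - if p ∣ k then (p : ℤ) * (sigma 1 (k / p) : ℤ) else 0

theorem eisCoeff_of_dvd {p k : ℕ} (h : p ∣ k) :
    eisCoeff p k = (sigma 1 k : ℤ) - (p : ℤ) * (sigma 1 (k / p) : ℤ) := by
  rw [eisCoeff, if_pos h]

theorem eisCoeff_of_not_dvd {p k : ℕ} (h : ¬ p ∣ k) : eisCoeff p k = (sigma 1 k : ℤ) := by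
  rw [eisCoeff, if_neg h, sub_zero]

theorem eisCoeff_one (p : ℕ) (hp : p.Prime) : eisCoeff p 1 = 1 := by
  have : ¬ p ∣ 1 := hp.one_lt.ne' ∘ Nat.dvd_one.mp
  rw [eisCoeff_of_not_dvd this]
  simp

theorem eisCoeff_mul_self (p : ℕ) (hp : p.Prime) (k : ℕ) (hk : 1 ≤ k) :
    eisCoeff p (k * p) = eisCoeff p k := by
  have h := sigma_hecke p hp k hk
  have e2 : k * p / p = k := Nat.mul_div_cancel k hp.pos
  rw [eisCoeff_of_dvd (dvd_mul_left p k), e2]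
  by_cases hd : p ∣ k
  · rw [eisCoeff_of_dvd hd]
    rw [if_pos hd] at h
    linear_combination h
  · rw [eisCoeff_of_not_dvd hd]
    rw [if_neg hd] at h
    linear_combination h

theorem eisCoeff_hecke (p : ℕ) (hp : p.Prime) (ℓ : ℕ) (hℓ : ℓ.Prime) (hℓp : ℓ ≠ p) (k : ℕ)
    (hk : 1 ≤ k) :
    eisCoeff p (k * ℓ) + (if ℓ ∣ k then (ℓ : ℤ) * eisCoeff p (k / ℓ) else 0) =
      (1 + (ℓ : ℤ)) * eisCoeff p k := by
  have hpℓ : ¬ p ∣ ℓ := fun h => hℓp ((Nat.prime_dvd_prime_iff_eq hp hℓ).mp h).symm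
  have hℓp' : ¬ ℓ ∣ p := fun h => hℓp ((Nat.prime_dvd_prime_iff_eq hℓ hp).mp h)
  have h := sigma_hecke ℓ hℓ k hk
  by_cases hpk : p ∣ k
  · obtain ⟨k', rfl⟩ := hpk
    have hk' : 1 ≤ k' := by
      rcases Nat.eq_zero_or_pos k' with rfl | h'
      · simp at hk
      · exact h'
    have h' := sigma_hecke ℓ hℓ k' hk'
    have d1 : p ∣ p * k' * ℓ := Dvd.dvd.mul_right (dvd_mul_right p k') ℓ
    have d2 : p * k' * ℓ / p = k' * ℓ := by
      rw [mul_assoc, Nat.mul_div_cancel_left _ hp.pos]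
    have d3 : p * k' / p = k' := Nat.mul_div_cancel_left _ hp.pos
    rw [eisCoeff_of_dvd d1, d2, eisCoeff_of_dvd (dvd_mul_right p k'), d3]
    by_cases hd : ℓ ∣ k'
    · have hd' : ℓ ∣ p * k' := Dvd.dvd.mul_left hd p
      obtain ⟨k'', rfl⟩ := hd
      have d5 : p * (ℓ * k'') / ℓ = p * k'' := by
        rw [mul_left_comm, Nat.mul_div_cancel_left _ hℓ.pos]
      have d6 : ℓ * k'' / ℓ = k'' := Nat.mul_div_cancel_left _ hℓ.pos
      rw [if_pos hd', d5] at h ⊢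
      rw [if_pos (dvd_mul_right ℓ k''), d6] at h'
      rw [eisCoeff_of_dvd (dvd_mul_right p k''), Nat.mul_div_cancel_left _ hp.pos]
      linear_combination h - (p : ℤ) * h'
    · have hd' : ¬ ℓ ∣ p * k' := fun h0 => hd ((hℓ.dvd_mul.mp h0).resolve_left hℓp')
      rw [if_neg hd'] at h ⊢
      rw [if_neg hd] at h'
      linear_combination h - (p : ℤ) * h'
  · have d1 : ¬ p ∣ k * ℓ := fun h0 => (hp.dvd_mul.mp h0).elim hpk hpℓ
    rw [eisCoeff_of_not_dvd d1, eisCoeff_of_not_dvd hpk]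
    by_cases hd : ℓ ∣ k
    · have d2 : ¬ p ∣ k / ℓ := fun h0 => hpk (Dvd.dvd.trans h0 (Nat.div_dvd_of_dvd hd))
      rw [if_pos hd] at h ⊢
      rw [eisCoeff_of_not_dvd d2]
      linear_combination h
    · rw [if_neg hd] at h ⊢
      linear_combination h

end Fermat.Agent.S16.EisCoeff

namespace Fermat.Agent.S16.EisCoeff

/-- `eisCoeff p k` is the sum of the divisors of `k` prime to `p`. -/
theorem eisCoeff_eq_sum (p : ℕ) (hp : p.Prime) (k : ℕ) (hk : 1 ≤ k) :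
    eisCoeff p k = ∑ d ∈ k.divisors.filter (fun d => ¬ p ∣ d), (d : ℤ) := by
  have hk0 : k ≠ 0 := by omega
  have hsplit : (∑ d ∈ k.divisors, (d : ℤ)) =
      ∑ d ∈ k.divisors.filter (fun d => p ∣ d), (d : ℤ) +
        ∑ d ∈ k.divisors.filter (fun d => ¬ p ∣ d), (d : ℤ) :=
    (Finset.sum_filter_add_sum_filter_not k.divisors (fun d => p ∣ d) (fun d => (d : ℤ))).symm
  have hσ : ∀ m : ℕ, (sigma 1 m : ℤ) = ∑ d ∈ m.divisors, (d : ℤ) := by
    intro m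
    rw [sigma_apply]
    push_cast
    simp
  by_cases hd : p ∣ k
  · rw [eisCoeff_of_dvd hd, hσ k, hsplit, hσ (k / p)]
    have h1 : ∑ d ∈ k.divisors.filter (fun d => p ∣ d), (d : ℤ) =
        (p : ℤ) * ∑ d ∈ (k / p).divisors, (d : ℤ) := by
      rw [Finset.mul_sum]
      symm
      apply Finset.sum_bij (fun d _ => p * d)
      · intro d hd'
        rw [Nat.mem_divisors] at hd'
        rw [Finset.mem_filter, Nat.mem_divisors]
        refine ⟨⟨?_, hk0⟩, dvd_mul_right p d⟩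
        obtain ⟨c, hc⟩ := hd
        rw [hc, Nat.mul_div_cancel_left _ hp.pos] at hd'
        rw [hc]
        exact Nat.mul_dvd_mul_left p hd'.1
      · intro a _ b _ hab
        exact Nat.eq_of_mul_eq_mul_left hp.pos hab
      · intro d hd'
        rw [Finset.mem_filter, Nat.mem_divisors] at hd'
        obtain ⟨⟨hdk, -⟩, c, rfl⟩ := hd'
        refine ⟨c, ?_, rfl⟩
        rw [Nat.mem_divisors]
        obtain ⟨c', hc'⟩ := hd
        rw [hc', Nat.mul_div_cancel_left _ hp.pos]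
        rw [hc'] at hdk
        refine ⟨(Nat.mul_dvd_mul_iff_left hp.pos).mp hdk, ?_⟩
        rintro rfl
        simp at hc'
        omega
      · intro d _
        push_cast
        rfl
    rw [h1]
    ring
  · rw [eisCoeff_of_not_dvd hd, hσ k, hsplit]
    have h1 : k.divisors.filter (fun d => p ∣ d) = ∅ := by
      rw [Finset.filter_eq_empty_iff]
      intro d hd' hpd
      exact hd (hpd.trans (Nat.mem_divisors.mp hd').1)
    rw [h1, Finset.sum_empty, zero_add]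

end Fermat.Agent.S16.EisCoeff
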