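import Mathlib
import Fermat.Prelude.Def_CuspForm_HeckeLocal
import Fermat.Prelude.Def_CuspForm_HeckeEvalForms
import Fermat.Prelude.Def_HeckeGalois_EichlerShimura
import Fermat.Prelude.Def_ModularCurve_ModularUnit
import Fermat.Prelude.Thm_ModularFormClass_qCoeff_heckeT
import Fermat.Prelude.Thm_ModularFormClass_qCoeff_heckeU
import Fermat.Prelude.Thm_ModularForm_sturm_bound_Gamma0
import Fermat.Prelude.Thm_CongruenceSubgroup_one_mem_strictPeriods_Gamma0
import Fermat.Agent.S16.EisCoeff

set_option autoImplicit false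
set_option linter.unusedSectionVars false

/-!
# S16, the frame: reduction of the Eisenstein-ideal index to two `q`-expansion bricks

For a prime `p`, let `L` be the lattice of weight 2 cusp forms on `Γ₀(p)` with integral
`q`-expansion, `𝕋` the Hecke algebra acting on `L`, and `e : ℕ → ℤ` the coefficients of the
Eisenstein series.  We show that `Nat.card (𝕋 ⧸ I) = n` as soon as

* (lower bound brick) some cusp form is congruent to the Eisenstein series modulo `n`, and
* (upper bound brick) every modulus `M` of such a congruence divides `n`.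
-/

namespace Fermat.Agent.S16.Frame

open UpperHalfPlane ModularCurve CuspForm

variable (p : ℕ) [Fact p.Prime]

/-- The `q`-expansion as a linear map on weight 2 cusp forms of level `Γ₀(p)`. -/
noncomputable def qExpLin :
    CuspForm (CongruenceSubgroup.Gamma0 p) 2 →ₗ[ℂ] PowerSeries ℂ where
  toFun f := qExpansion 1 f
  map_add' f g := by
    rw [FunLike.coe_add]
    exact ModularForm.qExpansion_add one_pos (CongruenceSubgroup.one_mem_strictPeriods_Gamma0 p) f g
  map_smul' c f := by
    rw [FunLike.coe_smul]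
    exact ModularForm.qExpansion_smul one_pos (CongruenceSubgroup.one_mem_strictPeriods_Gamma0 p) c f

/-- The `k`-th `q`-coefficient as a complex linear functional. -/
noncomputable def cfC (k : ℕ) : CuspForm (CongruenceSubgroup.Gamma0 p) 2 →ₗ[ℂ] ℂ :=
  (PowerSeries.coeff (R := ℂ) k).comp (qExpLin p)

theorem cfC_apply (k : ℕ) (f : CuspForm (CongruenceSubgroup.Gamma0 p) 2) :
    cfC p k f = ModularFormClass.qCoeff f k := rfl

theorem cfC_zero (f : CuspForm (CongruenceSubgroup.Gamma0 p) 2) : cfC p 0 f = 0 := by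
  rw [cfC_apply]
  exact CuspFormClass.qExpansion_coeff_zero f one_pos
    (CongruenceSubgroup.one_mem_strictPeriods_Gamma0 p)

/-- A cusp form all of whose `q`-coefficients vanish is zero. -/
theorem eq_zero_of_cfC (f : CuspForm (CongruenceSubgroup.Gamma0 p) 2)
    (h : ∀ k, 1 ≤ k → cfC p k f = 0) : f = 0 := by
  have h0 := ModularForm.sturm_bound_Gamma0 p (ModularFormClass.modularForm f) (fun n _ => by
    rcases Nat.eq_zero_or_pos n with rfl | hn
    · exact cfC_zero p f
    · exact h n hn)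
  ext τ
  have := congrArg (fun g : ModularForm (CongruenceSubgroup.Gamma0 p) 2 => g τ) h0
  simpa using this

/-- Elements of the integral lattice have integral `q`-coefficients. -/
theorem exists_int_cfC (g : CuspForm (CongruenceSubgroup.Gamma0 p) 2)
    (hg : g ∈ CuspForm.intLattice p 2) (k : ℕ) : ∃ c : ℤ, cfC p k g = c := by
  induction hg using Submodule.span_induction with
  | mem x hx => exact hx k
  | zero => exact ⟨0, by simp⟩
  | add x y _ _ hx hy =>
    obtain ⟨a, ha⟩ := hx
    obtain ⟨b, hb⟩ := hy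
    exact ⟨a + b, by rw [map_add, ha, hb]; push_cast; rfl⟩
  | smul a x _ hx =>
    obtain ⟨b, hb⟩ := hx
    refine ⟨a * b, ?_⟩
    have : a • x = (a : ℂ) • x := by
      rw [Int.cast_smul_eq_zsmul]
    rw [this, map_smul, hb]
    push_cast
    rfl

/-- A cusp form with integral `q`-coefficients in positive degrees lies in the lattice. -/
theorem mem_intLattice_of_int (g : CuspForm (CongruenceSubgroup.Gamma0 p) 2)
    (h : ∀ k, 1 ≤ k → ∃ c : ℤ, cfC p k g = c) : g ∈ CuspForm.intLattice p 2 := by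
  apply Submodule.subset_span
  intro k
  rcases Nat.eq_zero_or_pos k with rfl | hk
  · exact ⟨0, by rw [← cfC_apply, cfC_zero]; simp⟩
  · exact h k hk

/-- The `k`-th `q`-coefficient as an integer-valued functional on the lattice. -/
noncomputable def cf (k : ℕ) : ↥(CuspForm.intLattice p 2) →ₗ[ℤ] ℤ :=
  AddMonoidHom.toIntLinearMap
    { toFun := fun g => Classical.choose (exists_int_cfC p g.1 g.2 k)
      map_zero' := by
        apply Int.cast_injective (α := ℂ)
        rw [← Classical.choose_spec (exists_int_cfC p (0 : ↥(CuspForm.intLattice p 2)).1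
          (0 : ↥(CuspForm.intLattice p 2)).2 k)]
        simp
      map_add' := fun x y => by
        apply Int.cast_injective (α := ℂ)
        rw [Int.cast_add, ← Classical.choose_spec (exists_int_cfC p (x + y).1 (x + y).2 k),
          ← Classical.choose_spec (exists_int_cfC p x.1 x.2 k),
          ← Classical.choose_spec (exists_int_cfC p y.1 y.2 k)]
        simp }

theorem cf_spec (k : ℕ) (g : ↥(CuspForm.intLattice p 2)) :
    ((cf p k g : ℤ) : ℂ) = cfC p k g.1 :=
  (Classical.choose_spec (exists_int_cfC p g.1 g.2 k)).symm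

/-- The structure map from the polynomial Hecke algebra to the Hecke algebra of the lattice. -/
noncomputable def piHom : HeckeAlg →+* ↥(heckeLatticeAlgebra p ∅) :=
  (latticeRestrictHom p ∅).toRingHom.comp (heckeEvalForms p 2)

theorem piHom_def :
    piHom p = (latticeRestrictHom p ∅).toRingHom.comp (heckeEvalForms p 2) := rfl

theorem piHom_apply_coe (P : HeckeAlg) (g : ↥(CuspForm.intLattice p 2)) :
    (((piHom p P : ↥(heckeLatticeAlgebra p ∅)) : Module.End ℤ ↥(CuspForm.intLattice p 2)) g :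
      CuspForm (CongruenceSubgroup.Gamma0 p) 2) =
    ((heckeEvalForms p 2 P : ↥(heckeAlgebra p 2 ∅)) :
      Module.End ℂ (CuspForm (CongruenceSubgroup.Gamma0 p) 2)) g.1 := rfl

theorem cfC_T (ℓ : Nat.Primes) (h : ¬ (ℓ : ℕ) ∣ p)
    (g : CuspForm (CongruenceSubgroup.Gamma0 p) 2) (j : ℕ) :
    cfC p j (((heckeEvalForms p 2 (MvPolynomial.X ℓ) : ↥(heckeAlgebra p 2 ∅)) :
      Module.End ℂ (CuspForm (CongruenceSubgroup.Gamma0 p) 2)) g) =
    cfC p (j * ℓ) g + if (ℓ : ℕ) ∣ j then (ℓ : ℂ) * cfC p (j / ℓ) g else 0 := by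
  have h1 : heckeEvalForms p 2 (MvPolynomial.X ℓ) = heckeAlgebra.T ℓ.2 h (Set.notMem_empty _) :=
    heckeEvalForms_heckeGen_of_not_dvd h
  rw [h1, heckeAlgebra.coe_T, cfC_apply, cfC_apply, cfC_apply, CuspForm.coe_heckeTLin_apply,
    ModularFormClass.qCoeff_heckeT g (CongruenceSubgroup.one_mem_strictPeriods_Gamma0 p)
      ℓ.2.ne_zero j, ModularForm.coeffHeckeT_apply]
  norm_num

theorem cfC_U (ℓ : Nat.Primes) (h : (ℓ : ℕ) ∣ p)
    (g : CuspForm (CongruenceSubgroup.Gamma0 p) 2) (j : ℕ) :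
    cfC p j (((heckeEvalForms p 2 (MvPolynomial.X ℓ) : ↥(heckeAlgebra p 2 ∅)) :
      Module.End ℂ (CuspForm (CongruenceSubgroup.Gamma0 p) 2)) g) =
    cfC p (j * ℓ) g := by
  have h1 : heckeEvalForms p 2 (MvPolynomial.X ℓ) = heckeAlgebra.U ℓ.2 h (Set.notMem_empty _) :=
    heckeEvalForms_heckeGen_of_dvd h
  rw [h1, heckeAlgebra.coe_U, cfC_apply, cfC_apply, CuspForm.coe_heckeULin_apply,
    ModularFormClass.qCoeff_heckeU g (CongruenceSubgroup.one_mem_strictPeriods_Gamma0 p)
      ℓ.2.ne_zero j, ModularForm.coeffHeckeU_apply]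

theorem cf_T (ℓ : Nat.Primes) (h : ¬ (ℓ : ℕ) ∣ p) (g : ↥(CuspForm.intLattice p 2)) (j : ℕ) :
    cf p j (((piHom p (MvPolynomial.X ℓ) : ↥(heckeLatticeAlgebra p ∅)) :
      Module.End ℤ ↥(CuspForm.intLattice p 2)) g) =
    cf p (j * ℓ) g + if (ℓ : ℕ) ∣ j then (ℓ : ℤ) * cf p (j / ℓ) g else 0 := by
  apply Int.cast_injective (α := ℂ)
  rw [cf_spec, piHom_apply_coe, cfC_T p ℓ h]
  split_ifs <;> simp [cf_spec]

theorem cf_U (ℓ : Nat.Primes) (h : (ℓ : ℕ) ∣ p) (g : ↥(CuspForm.intLattice p 2)) (j : ℕ) :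
    cf p j (((piHom p (MvPolynomial.X ℓ) : ↥(heckeLatticeAlgebra p ∅)) :
      Module.End ℤ ↥(CuspForm.intLattice p 2)) g) = cf p (j * ℓ) g := by
  apply Int.cast_injective (α := ℂ)
  rw [cf_spec, piHom_apply_coe, cfC_U p ℓ h, cf_spec]

/-! ### Surjectivity of the structure map -/

theorem heckeEvalForms_surjective : Function.Surjective (heckeEvalForms p 2) := by
  have h1 : (MvPolynomial.aeval (R := ℤ) (heckeFormsGen p 2)).range = ⊤ := by
    have h0 : Algebra.adjoin ℤ ((Subtype.val : ↥(heckeAlgebra p 2 ∅) → _) ⁻¹'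
        heckeGenerators p 2 ∅) = ⊤ :=
      Algebra.adjoin_adjoin_coe_preimage (R := ℤ) (s := heckeGenerators p 2 ∅)
    rw [← Algebra.adjoin_range_eq_range_aeval, eq_top_iff, ← h0]
    apply Algebra.adjoin_mono
    rintro ⟨T, hT⟩ hmem
    rcases hmem with ⟨ℓ, hℓ, hℓN, -, rfl⟩ | ⟨q, hqN, hq, -, rfl⟩
    · exact ⟨⟨ℓ, hℓ⟩, by rw [heckeFormsGen_of_not_dvd (ℓ := ⟨ℓ, hℓ⟩) hℓN]; rfl⟩
    · exact ⟨⟨q, hq⟩, by rw [heckeFormsGen_of_dvd (q := ⟨q, hq⟩) hqN]; rfl⟩
  intro t
  have h2 : t ∈ (MvPolynomial.aeval (R := ℤ) (heckeFormsGen p 2)).range := h1 ▸ Algebra.mem_top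
  exact h2

theorem piHom_surjective : Function.Surjective (piHom p) :=
  (latticeRestrictHom_surjective p ∅).comp (heckeEvalForms_surjective p)

/-! ### Eisenstein systems and congruences -/

/-- The evaluation of Hecke polynomials at the Eisenstein eigenvalues. -/
noncomputable def ev : HeckeAlg →ₐ[ℤ] ℤ := MvPolynomial.aeval (R := ℤ) (eisensteinSystem p)

theorem ev_C (a : ℤ) : ev p (MvPolynomial.C a) = a := by
  rw [ev, MvPolynomial.aeval_C]; rfl

theorem ev_X (i : Nat.Primes) : ev p (MvPolynomial.X i) = eisensteinSystem p i := by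
  rw [ev, MvPolynomial.aeval_X]

theorem mem_eisensteinIdeal_iff (P : HeckeAlg) : P ∈ eisensteinIdeal p ↔ ev p P = 0 :=
  mem_eigenIdeal_iff _ _

/-- An Eisenstein coefficient system of level `p`: the `q`-coefficients `e k` (`k ≥ 1`) of a
normalised formal eigenvector with eigenvalues `1 + ℓ` (`ℓ ≠ p`) and `1` (at `p`). -/
structure IsEisSystem (e : ℕ → ℤ) : Prop where
  one : e 1 = 1
  hecke : ∀ ℓ : ℕ, ℓ.Prime → ℓ ≠ p → ∀ k : ℕ, 1 ≤ k →
    e (k * ℓ) + (if ℓ ∣ k then (ℓ : ℤ) * e (k / ℓ) else 0) = (1 + (ℓ : ℤ)) * e k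
  heckeU : ∀ k : ℕ, 1 ≤ k → e (k * p) = e k

variable {p}

/-- `g ≡ c · e` modulo `M` in all positive degrees. -/
def Cong (e : ℕ → ℤ) (M : ℕ) (c : ℤ) (g : ↥(CuspForm.intLattice p 2)) : Prop :=
  ∀ k, 1 ≤ k → (M : ℤ) ∣ cf p k g - c * e k

theorem Cong.gen {e : ℕ → ℤ} (he : IsEisSystem p e) {M : ℕ} {c : ℤ}
    {g : ↥(CuspForm.intLattice p 2)} (h : Cong e M c g) (i : Nat.Primes) :
    Cong e M (c * eisensteinSystem p i)
      (((piHom p (MvPolynomial.X i) : ↥(heckeLatticeAlgebra p ∅)) :
        Module.End ℤ ↥(CuspForm.intLattice p 2)) g) := by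
  intro k hk
  by_cases hi : (i : ℕ) ∣ p
  · have hip : (i : ℕ) = p := (Nat.prime_dvd_prime_iff_eq i.2 (Fact.out : p.Prime)).mp hi
    rw [cf_U p i hi, eisensteinSystem_of_dvd hi, mul_one, hip, ← he.heckeU k hk]
    exact h (k * p) (Nat.mul_pos hk (Fact.out : p.Prime).pos)
  · have hip : (i : ℕ) ≠ p := fun h' => hi (h' ▸ dvd_rfl)
    rw [cf_T p i hi, eisensteinSystem_of_not_dvd hi]
    have key := he.hecke i i.2 hip k hk
    have e1 : c * (1 + ((i : ℕ) : ℤ)) * e k = c * e (k * i) +
        c * (if (i : ℕ) ∣ k then ((i : ℕ) : ℤ) * e (k / i) else 0) := by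
      rw [mul_assoc, ← key]; ring
    rw [e1]
    have h1 := h (k * i) (Nat.mul_pos hk i.2.pos)
    split_ifs with hd
    · have h2 := h (k / i) (Nat.div_pos (Nat.le_of_dvd hk hd) i.2.pos)
      have : cf p (k * i) g + ((i : ℕ) : ℤ) * cf p (k / i) g -
          (c * e (k * i) + c * (((i : ℕ) : ℤ) * e (k / i))) =
          (cf p (k * i) g - c * e (k * i)) + ((i : ℕ) : ℤ) * (cf p (k / i) g - c * e (k / i)) := by
        ring
      rw [this]
      exact dvd_add h1 (Dvd.dvd.mul_left h2 _)
    · simpa using h1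

theorem Cong.poly {e : ℕ → ℤ} (he : IsEisSystem p e) {M : ℕ} (P : HeckeAlg) :
    ∀ (c : ℤ) (g : ↥(CuspForm.intLattice p 2)), Cong e M c g →
      Cong e M (c * ev p P)
        (((piHom p P : ↥(heckeLatticeAlgebra p ∅)) :
          Module.End ℤ ↥(CuspForm.intLattice p 2)) g) := by
  induction P using MvPolynomial.induction_on with
  | C a =>
    intro c g h k hk
    have h1 : ((piHom p (MvPolynomial.C a) : ↥(heckeLatticeAlgebra p ∅)) :
        Module.End ℤ ↥(CuspForm.intLattice p 2)) g = a • g := by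
      have h0 : piHom p (MvPolynomial.C a) = ((a : ℤ) : ↥(heckeLatticeAlgebra p ∅)) :=
        congrFun (congrArg DFunLike.coe (RingHom.ext_int ((piHom p).comp MvPolynomial.C)
          (Int.castRingHom _))) a
      rw [h0, SubringClass.coe_intCast]
      simp
    rw [h1, map_smul, smul_eq_mul]
    rw [ev_C]
    have : a * cf p k g - c * a * e k = a * (cf p k g - c * e k) := by ring
    rw [this]
    exact Dvd.dvd.mul_left (h k hk) _
  | add P Q hP hQ =>
    intro c g h k hk
    rw [map_add, Subalgebra.coe_add, LinearMap.add_apply, map_add, map_add, mul_add]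
    have : cf p k (((piHom p P : ↥(heckeLatticeAlgebra p ∅)) :
          Module.End ℤ ↥(CuspForm.intLattice p 2)) g) +
        cf p k (((piHom p Q : ↥(heckeLatticeAlgebra p ∅)) :
          Module.End ℤ ↥(CuspForm.intLattice p 2)) g) -
        (c * ev p P + c * ev p Q) * e k =
        (cf p k (((piHom p P : ↥(heckeLatticeAlgebra p ∅)) :
          Module.End ℤ ↥(CuspForm.intLattice p 2)) g) - c * ev p P * e k) +
        (cf p k (((piHom p Q : ↥(heckeLatticeAlgebra p ∅)) :
          Module.End ℤ ↥(CuspForm.intLattice p 2)) g) - c * ev p Q * e k) := by ring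
    rw [this]
    exact dvd_add (hP c g h k hk) (hQ c g h k hk)
  | mul_X P i hP =>
    intro c g h
    have h1 := hP (c * eisensteinSystem p i) _ (h.gen he i)
    have h2 : ev p (P * MvPolynomial.X i) = ev p P * eisensteinSystem p i := by
      rw [map_mul, ev_X]
    rw [h2]
    have h3 : c * (ev p P * eisensteinSystem p i) = c * eisensteinSystem p i * ev p P := by ring
    rw [h3, map_mul, Subalgebra.coe_mul, Module.End.mul_apply]
    exact h1

variable (p)

/-- (K1) A congruence between a cusp form and the Eisenstein system modulo `M` forces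
`M ∣ P(a)` for every Hecke polynomial `P` acting as zero. -/
theorem dvd_ev_of_cong {e : ℕ → ℤ} (he : IsEisSystem p e) {M : ℕ}
    {f : ↥(CuspForm.intLattice p 2)} (hf : Cong e M 1 f) (P : HeckeAlg) (hP : piHom p P = 0) :
    (M : ℤ) ∣ ev p P := by
  have h1 := Cong.poly he P 1 f hf 1 le_rfl
  rw [hP, he.one] at h1
  simpa using h1

/-! ### Duality between the Hecke algebra and the lattice -/

theorem dvd_cf_all (D : ℤ) (g : ↥(CuspForm.intLattice p 2))
    (h : ∀ t : ↥(heckeLatticeAlgebra p ∅),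
      D ∣ cf p 1 ((t : Module.End ℤ ↥(CuspForm.intLattice p 2)) g)) :
    ∀ k, 1 ≤ k → ∀ t : ↥(heckeLatticeAlgebra p ∅),
      D ∣ cf p k ((t : Module.End ℤ ↥(CuspForm.intLattice p 2)) g) := by
  intro k
  induction k using Nat.strong_induction_on with
  | _ k ih =>
    intro hk t
    rcases eq_or_lt_of_le hk with rfl | hk1
    · exact h t
    · have hℓ : k.minFac.Prime := Nat.minFac_prime (by omega)
      obtain ⟨j, hj⟩ := Nat.minFac_dvd k
      have hj1 : 1 ≤ j := by
        rcases Nat.eq_zero_or_pos j with rfl | h'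
        · omega
        · exact h'
      have hjk : j < k := by
        have := hℓ.one_lt
        calc j = 1 * j := (one_mul j).symm
          _ < k.minFac * j := Nat.mul_lt_mul_of_pos_right this hj1
          _ = k := hj.symm
      have hkj : k = j * k.minFac := by rw [mul_comm]; exact hj
      by_cases hi : k.minFac ∣ p
      · have key := cf_U p ⟨k.minFac, hℓ⟩ hi ((t : Module.End ℤ ↥(CuspForm.intLattice p 2)) g) j
        rw [← Module.End.mul_apply, ← Subalgebra.coe_mul] at key
        have e1 : cf p k ((t : Module.End ℤ ↥(CuspForm.intLattice p 2)) g) =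
            cf p (j * k.minFac) ((t : Module.End ℤ ↥(CuspForm.intLattice p 2)) g) := by
          rw [← hkj]
        rw [e1, ← key]
        exact ih j hjk hj1 _
      · have key := cf_T p ⟨k.minFac, hℓ⟩ hi ((t : Module.End ℤ ↥(CuspForm.intLattice p 2)) g) j
        rw [← Module.End.mul_apply, ← Subalgebra.coe_mul] at key
        have e1 : cf p k ((t : Module.End ℤ ↥(CuspForm.intLattice p 2)) g) =
            cf p (j * k.minFac) ((t : Module.End ℤ ↥(CuspForm.intLattice p 2)) g) := by
          rw [← hkj]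
        have e2 : cf p (j * k.minFac) ((t : Module.End ℤ ↥(CuspForm.intLattice p 2)) g) =
            cf p j (((piHom p (MvPolynomial.X ⟨k.minFac, hℓ⟩) * t : ↥(heckeLatticeAlgebra p ∅)) :
              Module.End ℤ ↥(CuspForm.intLattice p 2)) g) -
            (if k.minFac ∣ j then (k.minFac : ℤ) *
              cf p (j / k.minFac) ((t : Module.End ℤ ↥(CuspForm.intLattice p 2)) g) else 0) := by
          rw [key]; simp
        rw [e1, e2]
        apply dvd_sub
        · exact ih j hjk hj1 _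
        · split_ifs with hd
          · exact Dvd.dvd.mul_left (ih (j / k.minFac)
              (lt_of_le_of_lt (Nat.div_le_self _ _) hjk)
              (Nat.div_pos (Nat.le_of_dvd hj1 hd) hℓ.pos) t) _
          · exact dvd_zero _

/-- (D1) The `a₁`-pairing is nondegenerate on the lattice side. -/
theorem eq_zero_of_pairing (g : ↥(CuspForm.intLattice p 2))
    (h : ∀ t : ↥(heckeLatticeAlgebra p ∅),
      cf p 1 ((t : Module.End ℤ ↥(CuspForm.intLattice p 2)) g) = 0) : g = 0 := by
  have h1 := dvd_cf_all p 0 g (fun t => by rw [h t])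
  apply Subtype.ext
  apply eq_zero_of_cfC p
  intro k hk
  have h2 := h1 k hk 1
  rw [zero_dvd_iff] at h2
  rw [← cf_spec]
  simpa using h2

/-- (D2) The `a₁`-pairing is nondegenerate on the Hecke side. -/
theorem eq_zero_of_pairing' (t : ↥(heckeLatticeAlgebra p ∅))
    (h : ∀ g : ↥(CuspForm.intLattice p 2),
      cf p 1 ((t : Module.End ℤ ↥(CuspForm.intLattice p 2)) g) = 0) : t = 0 := by
  apply Subtype.ext
  apply LinearMap.ext
  intro g
  apply eq_zero_of_pairing p
  intro t'
  rw [← Module.End.mul_apply, ← Subalgebra.coe_mul, mul_comm, Subalgebra.coe_mul,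
    Module.End.mul_apply]
  exact h _

/-- The pairing `(t, g) ↦ a₁(t g)`. -/
noncomputable def pairT :
    ↥(heckeLatticeAlgebra p ∅) →ₗ[ℤ] (↥(CuspForm.intLattice p 2) →ₗ[ℤ] ℤ) :=
  (LinearMap.llcomp ℤ ↥(CuspForm.intLattice p 2) ↥(CuspForm.intLattice p 2) ℤ (cf p 1)) ∘ₗ
    (heckeLatticeAlgebra p ∅).val.toLinearMap

theorem pairT_apply (t : ↥(heckeLatticeAlgebra p ∅)) (g : ↥(CuspForm.intLattice p 2)) :
    pairT p t g = cf p 1 ((t : Module.End ℤ ↥(CuspForm.intLattice p 2)) g) := rfl

theorem pairT_injective : Function.Injective (pairT p) := by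
  rw [injective_iff_map_eq_zero]
  intro t ht
  exact eq_zero_of_pairing' p t fun g => by rw [← pairT_apply, ht]; rfl

theorem pairT_flip_injective : Function.Injective (pairT p).flip := by
  rw [injective_iff_map_eq_zero]
  intro g hg
  exact eq_zero_of_pairing p g fun t => by
    rw [← pairT_apply, ← LinearMap.flip_apply, hg]; rfl

theorem finrank_hecke_eq :
    Module.finrank ℤ ↥(heckeLatticeAlgebra p ∅) = Module.finrank ℤ ↥(CuspForm.intLattice p 2) := by
  have i1 := intLattice.moduleFinite p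
  have i2 := intLattice.moduleFree p
  have r1 : Module.finrank ℤ ↥(heckeLatticeAlgebra p ∅) ≤
      Module.finrank ℤ ↥(CuspForm.intLattice p 2) := by
    have := LinearMap.finrank_le_finrank_of_injective (pairT_injective p)
    rwa [Module.finrank_linearMap_self] at this
  have r2 : Module.finrank ℤ ↥(CuspForm.intLattice p 2) ≤
      Module.finrank ℤ ↥(heckeLatticeAlgebra p ∅) := by
    have := LinearMap.finrank_le_finrank_of_injective (pairT_flip_injective p)
    rwa [Module.finrank_linearMap_self] at this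
  exact le_antisymm r1 r2

theorem exists_nsmul_mem_range :
    ∃ D : ℕ, 0 < D ∧ ∀ φ : ↥(heckeLatticeAlgebra p ∅) →ₗ[ℤ] ℤ,
      (D : ℤ) • φ ∈ LinearMap.range (pairT p).flip := by
  have i1 := intLattice.moduleFinite p
  have i2 := intLattice.moduleFree p
  have r3 : Module.finrank ℤ ↥(LinearMap.range (pairT p).flip) =
      Module.finrank ℤ (↥(heckeLatticeAlgebra p ∅) →ₗ[ℤ] ℤ) := by
    rw [LinearMap.finrank_range_of_inj (pairT_flip_injective p), Module.finrank_linearMap_self]
    exact (finrank_hecke_eq p).symm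
  have i3 : Finite ((↥(heckeLatticeAlgebra p ∅) →ₗ[ℤ] ℤ) ⧸ LinearMap.range (pairT p).flip) :=
    Submodule.finiteQuotientOfFreeOfRankEq _ r3
  have i4 : Finite ((↥(heckeLatticeAlgebra p ∅) →ₗ[ℤ] ℤ) ⧸
      (LinearMap.range (pairT p).flip).toAddSubgroup) := i3
  have i5 : (LinearMap.range (pairT p).flip).toAddSubgroup.FiniteIndex :=
    AddSubgroup.finiteIndex_of_finite_quotient
  refine ⟨(LinearMap.range (pairT p).flip).toAddSubgroup.index,
    Nat.pos_of_ne_zero AddSubgroup.FiniteIndex.index_ne_zero, fun φ => ?_⟩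
  have h0 := AddSubgroup.nsmul_index_mem (LinearMap.range (pairT p).flip).toAddSubgroup φ
  rw [natCast_zsmul]
  exact h0

/-- (D-surj) Every `ℤ`-linear functional on the Hecke algebra is `t ↦ a₁(t f)` for some `f` in
the lattice. -/
theorem exists_pairing_eq (φ : ↥(heckeLatticeAlgebra p ∅) →ₗ[ℤ] ℤ) :
    ∃ f : ↥(CuspForm.intLattice p 2), ∀ t : ↥(heckeLatticeAlgebra p ∅),
      cf p 1 ((t : Module.End ℤ ↥(CuspForm.intLattice p 2)) f) = φ t := by
  obtain ⟨D, hDpos, hD⟩ := exists_nsmul_mem_range p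
  obtain ⟨g', hg'⟩ := hD φ
  have hval : ∀ t : ↥(heckeLatticeAlgebra p ∅),
      cf p 1 ((t : Module.End ℤ ↥(CuspForm.intLattice p 2)) g') = (D : ℤ) * φ t := by
    intro t
    have h1 := congrArg (fun ψ : ↥(heckeLatticeAlgebra p ∅) →ₗ[ℤ] ℤ => ψ t) hg'
    simp only [LinearMap.flip_apply, pairT_apply, LinearMap.smul_apply, smul_eq_mul] at h1
    exact h1
  have hall := dvd_cf_all p D g' (fun t => ⟨φ t, hval t⟩)
  have hDC : (D : ℂ) ≠ 0 := by exact_mod_cast hDpos.ne'
  have hfC : ((D : ℂ)⁻¹) • (g' : CuspForm (CongruenceSubgroup.Gamma0 p) 2) ∈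
      CuspForm.intLattice p 2 := by
    apply mem_intLattice_of_int p
    intro k hk
    obtain ⟨c, hc⟩ := hall k hk 1
    refine ⟨c, ?_⟩
    have h2 : cfC p k (g' : CuspForm (CongruenceSubgroup.Gamma0 p) 2) = (D : ℂ) * c := by
      rw [← cf_spec]
      have : cf p k g' = (D : ℤ) * c := by simpa using hc
      rw [this]; push_cast; rfl
    rw [map_smul, h2, smul_eq_mul, ← mul_assoc, inv_mul_cancel₀ hDC, one_mul]
  refine ⟨⟨_, hfC⟩, fun t => ?_⟩
  have hDf : (D : ℤ) • (⟨_, hfC⟩ : ↥(CuspForm.intLattice p 2)) = g' := by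
    apply Subtype.ext
    show (D : ℤ) • ((D : ℂ)⁻¹ • (g' : CuspForm (CongruenceSubgroup.Gamma0 p) 2)) = g'
    rw [← Int.cast_smul_eq_zsmul ℂ, smul_smul]
    simp [hDC]
  have h3 := hval t
  rw [← hDf, map_smul, map_smul, smul_eq_mul] at h3
  exact mul_left_cancel₀ (by exact_mod_cast hDpos.ne') h3

/-! ### Ring homomorphisms to `ZMod m` and the congruences they produce -/

theorem ev_surjective : Function.Surjective (ev p) := fun z => ⟨MvPolynomial.C z, ev_C p z⟩

theorem ev_X_of_dvd {i : Nat.Primes} (h : (i : ℕ) ∣ p) : ev p (MvPolynomial.X i) = 1 := by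
  rw [ev_X]
  exact eisensteinSystem_of_dvd h

theorem ev_X_of_not_dvd {i : Nat.Primes} (h : ¬ (i : ℕ) ∣ p) :
    ev p (MvPolynomial.X i) = 1 + ((i : ℕ) : ℤ) := by
  rw [ev_X]
  exact eisensteinSystem_of_not_dvd h

theorem exists_hom_zmod (m : ℕ) (hm : ∀ P : HeckeAlg, piHom p P = 0 → (m : ℤ) ∣ ev p P) :
    ∃ θ : ↥(heckeLatticeAlgebra p ∅) →+* ZMod m,
      ∀ P : HeckeAlg, θ (piHom p P) = ((ev p P : ℤ) : ZMod m) := by
  let evm : HeckeAlg →+* ZMod m := (Int.castRingHom (ZMod m)).comp (ev p : HeckeAlg →+* ℤ)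
  have hker : RingHom.ker (piHom p) ≤ RingHom.ker evm := by
    intro P hP
    rw [RingHom.mem_ker] at hP ⊢
    show ((ev p P : ℤ) : ZMod m) = 0
    exact (ZMod.intCast_zmod_eq_zero_iff_dvd _ _).mpr (hm P hP)
  refine ⟨(piHom p).liftOfRightInverse _ (Function.rightInverse_surjInv (piHom_surjective p))
    ⟨evm, hker⟩, fun P => ?_⟩
  rw [RingHom.liftOfRightInverse_comp_apply]
  rfl

set_option maxHeartbeats 2000000 in
theorem cast_cf_eq_of_hom {e : ℕ → ℤ} (he : IsEisSystem p e) (m : ℕ)
    (θ : ↥(heckeLatticeAlgebra p ∅) →+* ZMod m)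
    (hθ : ∀ P : HeckeAlg, θ (piHom p P) = ((ev p P : ℤ) : ZMod m))
    (f : ↥(CuspForm.intLattice p 2))
    (hf : ∀ t : ↥(heckeLatticeAlgebra p ∅),
      ((cf p 1 ((t : Module.End ℤ ↥(CuspForm.intLattice p 2)) f) : ℤ) : ZMod m) = θ t) :
    ∀ k, 1 ≤ k → ∀ t : ↥(heckeLatticeAlgebra p ∅),
      ((cf p k ((t : Module.End ℤ ↥(CuspForm.intLattice p 2)) f) : ℤ) : ZMod m) =
        θ t * ((e k : ℤ) : ZMod m) := by
  intro k
  induction k using Nat.strong_induction_on with
  | _ k ih =>
    intro hk t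
    rcases eq_or_lt_of_le hk with rfl | hk1
    · rw [hf t, he.one]; simp
    · have hℓ : k.minFac.Prime := Nat.minFac_prime (by omega)
      obtain ⟨j, hj⟩ := Nat.minFac_dvd k
      have hj1 : 1 ≤ j := by
        rcases Nat.eq_zero_or_pos j with rfl | h'
        · omega
        · exact h'
      have hjk : j < k := by
        have := hℓ.one_lt
        calc j = 1 * j := (one_mul j).symm
          _ < k.minFac * j := Nat.mul_lt_mul_of_pos_right this hj1
          _ = k := hj.symm
      have hkj : k = j * k.minFac := by rw [mul_comm]; exact hj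
      have e1 : cf p k ((t : Module.End ℤ ↥(CuspForm.intLattice p 2)) f) =
          cf p (j * k.minFac) ((t : Module.End ℤ ↥(CuspForm.intLattice p 2)) f) := by
        rw [← hkj]
      have e0 : e k = e (j * k.minFac) := by rw [← hkj]
      by_cases hi : k.minFac ∣ p
      · have hip : k.minFac = p := (Nat.prime_dvd_prime_iff_eq hℓ (Fact.out : p.Prime)).mp hi
        have key := cf_U p ⟨k.minFac, hℓ⟩ hi ((t : Module.End ℤ ↥(CuspForm.intLattice p 2)) f) j
        rw [← Module.End.mul_apply, ← Subalgebra.coe_mul] at key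
        have h1 := ih j hjk hj1 (piHom p (MvPolynomial.X ⟨k.minFac, hℓ⟩) * t)
        rw [key, map_mul, hθ] at h1
        have h2 : ev p (MvPolynomial.X ⟨k.minFac, hℓ⟩) = 1 :=
          ev_X_of_dvd p (i := ⟨k.minFac, hℓ⟩) hi
        rw [h2] at h1
        have e2 : e (j * k.minFac) = e j := by
          have := he.heckeU j hj1
          rwa [← hip] at this
        have h1' : ((cf p (j * k.minFac)
            ((t : Module.End ℤ ↥(CuspForm.intLattice p 2)) f) : ℤ) : ZMod m) =
            ((1 : ℤ) : ZMod m) * θ t * ((e j : ℤ) : ZMod m) := h1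
        rw [e1, h1', e0, e2]
        simp
      · have hip : k.minFac ≠ p := fun h' => hi (h' ▸ dvd_rfl)
        have key := cf_T p ⟨k.minFac, hℓ⟩ hi ((t : Module.End ℤ ↥(CuspForm.intLattice p 2)) f) j
        rw [← Module.End.mul_apply, ← Subalgebra.coe_mul] at key
        have h2 : ev p (MvPolynomial.X ⟨k.minFac, hℓ⟩) = 1 + (k.minFac : ℤ) :=
          ev_X_of_not_dvd p (i := ⟨k.minFac, hℓ⟩) hi
        have hθX : θ (piHom p (MvPolynomial.X ⟨k.minFac, hℓ⟩) * t) =
            ((1 + (k.minFac : ℤ) : ℤ) : ZMod m) * θ t := by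
          rw [map_mul, hθ, h2]
        have h1 := (ih j hjk hj1 (piHom p (MvPolynomial.X ⟨k.minFac, hℓ⟩) * t)).trans
          (congrArg (fun x => x * ((e j : ℤ) : ZMod m)) hθX)
        have h1' : ((cf p (j * k.minFac)
            ((t : Module.End ℤ ↥(CuspForm.intLattice p 2)) f) +
            (if k.minFac ∣ j then (k.minFac : ℤ) * cf p (j / k.minFac)
              ((t : Module.End ℤ ↥(CuspForm.intLattice p 2)) f) else 0) : ℤ) : ZMod m) =
            ((1 + (k.minFac : ℤ) : ℤ) : ZMod m) * θ t * ((e j : ℤ) : ZMod m) :=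
          (congrArg (Int.cast : ℤ → ZMod m) key.symm).trans h1
        clear h1 key
        have h3 := he.hecke k.minFac hℓ hip j hj1
        have h3' := congrArg (Int.cast : ℤ → ZMod m) h3
        rw [e1, e0]
        by_cases hd : k.minFac ∣ j
        · have h4 := ih (j / k.minFac) (lt_of_le_of_lt (Nat.div_le_self _ _) hjk)
            (Nat.div_pos (Nat.le_of_dvd hj1 hd) hℓ.pos) t
          simp only [if_pos hd] at h1' h3'
          push_cast at h1' h3'
          have h5 : ((cf p (j * k.minFac)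
              ((t : Module.End ℤ ↥(CuspForm.intLattice p 2)) f) : ℤ) : ZMod m) =
              (1 + (k.minFac : ZMod m)) * θ t * ((e j : ℤ) : ZMod m) -
              (k.minFac : ZMod m) * ((cf p (j / k.minFac)
                ((t : Module.End ℤ ↥(CuspForm.intLattice p 2)) f) : ℤ) : ZMod m) := by
            rw [← h1']; ring
          rw [h5, h4]
          have h6 : ((e (j * k.minFac) : ℤ) : ZMod m) =
              (1 + (k.minFac : ZMod m)) * ((e j : ℤ) : ZMod m) -
              (k.minFac : ZMod m) * ((e (j / k.minFac) : ℤ) : ZMod m) := by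
            rw [← h3']; ring
          rw [h6]; ring
        · simp only [if_neg hd, add_zero] at h1' h3'
          push_cast at h1' h3'
          rw [h1', h3']; ring

/-- From a ring homomorphism `𝕋 → ZMod m` with Eisenstein eigenvalues we get a cusp form
congruent to the Eisenstein system modulo `m`. -/
theorem exists_cong_of_hom {e : ℕ → ℤ} (he : IsEisSystem p e) (m : ℕ)
    (θ : ↥(heckeLatticeAlgebra p ∅) →+* ZMod m)
    (hθ : ∀ P : HeckeAlg, θ (piHom p P) = ((ev p P : ℤ) : ZMod m)) :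
    ∃ f : ↥(CuspForm.intLattice p 2), Cong e m 1 f := by
  -- lift `θ` to a `ℤ`-linear functional
  obtain ⟨φ, hφ⟩ := Module.projective_lifting_property
    ((Int.castAddHom (ZMod m)).toIntLinearMap) (θ.toAddMonoidHom.toIntLinearMap)
    (ZMod.intCast_surjective)
  have hφ' : ∀ t : ↥(heckeLatticeAlgebra p ∅), ((φ t : ℤ) : ZMod m) = θ t := fun t =>
    congrArg (fun ψ : ↥(heckeLatticeAlgebra p ∅) →ₗ[ℤ] ZMod m => ψ t) hφ
  obtain ⟨f, hf⟩ := exists_pairing_eq p φ
  refine ⟨f, fun k hk => ?_⟩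
  have h1 := cast_cf_eq_of_hom p he m θ hθ f (fun t => by rw [hf t]; exact hφ' t) k hk 1
  rw [map_one, one_mul] at h1
  rw [one_mul, ← ZMod.intCast_zmod_eq_zero_iff_dvd, Int.cast_sub, sub_eq_zero]
  simpa using h1

/-- (K2) If every modulus of an Eisenstein congruence divides `n`, then some Hecke polynomial
acting as zero takes the value `n` at the Eisenstein eigenvalues. -/
theorem exists_ker_ev_eq {e : ℕ → ℤ} (he : IsEisSystem p e) (n : ℕ)
    (hB : ∀ (M : ℕ) (f : ↥(CuspForm.intLattice p 2)), Cong e M 1 f → M ∣ n) :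
    ∃ R : HeckeAlg, piHom p R = 0 ∧ ev p R = n := by
  set 𝔞 : Ideal ℤ := Ideal.map (ev p : HeckeAlg →+* ℤ) (RingHom.ker (piHom p)) with h𝔞
  set γ : ℤ := Submodule.IsPrincipal.generator 𝔞 with hγ
  have hm : ∀ P : HeckeAlg, piHom p P = 0 → ((γ.natAbs : ℕ) : ℤ) ∣ ev p P := by
    intro P hP
    have h1 : ev p P ∈ 𝔞 := Ideal.mem_map_of_mem _ (RingHom.mem_ker.mpr hP)
    rw [Submodule.IsPrincipal.mem_iff_generator_dvd] at h1
    exact Int.natAbs_dvd.mpr h1
  obtain ⟨θ, hθ⟩ := exists_hom_zmod p γ.natAbs hm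
  obtain ⟨f, hf⟩ := exists_cong_of_hom p he γ.natAbs θ hθ
  have hdvd : γ.natAbs ∣ n := hB _ f hf
  have hγn : γ ∣ (n : ℤ) := Int.natAbs_dvd_natAbs.mp (by simpa using hdvd)
  obtain ⟨z, hz⟩ := hγn
  have hγmem : γ ∈ 𝔞 := Submodule.IsPrincipal.generator_mem 𝔞
  obtain ⟨R0, hR0, hR0γ⟩ :=
    (Ideal.mem_map_iff_of_surjective (ev p : HeckeAlg →+* ℤ) (ev_surjective p)).mp hγmem
  refine ⟨MvPolynomial.C z * R0, ?_, ?_⟩
  · rw [map_mul, RingHom.mem_ker.mp hR0, mul_zero]
  · have h2 : ev p R0 = γ := hR0γ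
    rw [map_mul, h2, hz, ev_C, mul_comm]

set_option maxHeartbeats 4000000 in
/-- The frame, in kernel/lattice form: a lower bound `n ∣ ev P` on the kernel of the structure
map and the upper bound brick `hB` give the index. -/
theorem card_quotient_eq_of_ker {e : ℕ → ℤ} (he : IsEisSystem p e) (n : ℕ)
    (hL : ∀ P : HeckeAlg, piHom p P = 0 → (n : ℤ) ∣ ev p P)
    (hB : ∀ (M : ℕ) (f : ↥(CuspForm.intLattice p 2)), Cong e M 1 f → M ∣ n) :
    Nat.card (↥(heckeLatticeAlgebra p ∅) ⧸ Ideal.map (piHom p) (eisensteinIdeal p)) = n := by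
  obtain ⟨θ, hθ⟩ := exists_hom_zmod p n hL
  obtain ⟨R, hR0, hRn⟩ := exists_ker_ev_eq p he n hB
  have hsurj : Function.Surjective θ := by
    intro z
    obtain ⟨a, rfl⟩ := ZMod.intCast_surjective z
    exact ⟨piHom p (MvPolynomial.C a), by rw [hθ, ev_C]⟩
  have hker : Ideal.map (piHom p) (eisensteinIdeal p) = RingHom.ker θ := by
    apply le_antisymm
    · rw [Ideal.map_le_iff_le_comap]
      intro P hP
      have h0 : ev p P = 0 := (mem_eisensteinIdeal_iff p P).mp hP
      have h1 : θ (piHom p P) = 0 := by rw [hθ, h0]; simp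
      exact h1
    · intro t ht
      obtain ⟨P, rfl⟩ := piHom_surjective p t
      have ht' : (n : ℤ) ∣ ev p P := by
        have h0 := RingHom.mem_ker.mp ht
        rw [hθ] at h0
        exact (ZMod.intCast_zmod_eq_zero_iff_dvd _ _).mp h0
      obtain ⟨z, hz⟩ := ht'
      have h3 : P - MvPolynomial.C z * R ∈ eisensteinIdeal p := by
        rw [mem_eisensteinIdeal_iff, map_sub, map_mul, ev_C, hz, hRn]
        ring
      have h4 := Ideal.mem_map_of_mem (piHom p) h3
      have h1 : piHom p (P - MvPolynomial.C z * R) = piHom p P := by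
        rw [map_sub, map_mul, hR0, mul_zero, sub_zero]
      exact h1 ▸ h4
  rw [Nat.card_congr ((Ideal.quotEquivOfEq hker).trans
    (RingHom.quotientKerEquivOfSurjective hsurj)).toEquiv, Nat.card_zmod]

/-- The frame, in lattice form, with the lower bound given by a cusp form congruent to the
Eisenstein system modulo `n`. -/
theorem card_quotient_eq {e : ℕ → ℤ} (he : IsEisSystem p e) (n : ℕ)
    (hA : ∃ f : ↥(CuspForm.intLattice p 2), Cong e n 1 f)
    (hB : ∀ (M : ℕ) (f : ↥(CuspForm.intLattice p 2)), Cong e M 1 f → M ∣ n) :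
    Nat.card (↥(heckeLatticeAlgebra p ∅) ⧸ Ideal.map (piHom p) (eisensteinIdeal p)) = n := by
  obtain ⟨f, hf⟩ := hA
  exact card_quotient_eq_of_ker p he n (fun P hP => dvd_ev_of_cong p he hf P hP) hB

/-! ### The Eisenstein coefficient system `σ'` and the final statements -/

/-- The system `σ'(k) = Σ_{d ∣ k, p ∤ d} d` is an Eisenstein system of level `p`. -/
theorem isEisSystem_eisCoeff : IsEisSystem p (EisCoeff.eisCoeff p) where
  one := EisCoeff.eisCoeff_one p Fact.out
  hecke := fun ℓ hℓ hℓp k hk => EisCoeff.eisCoeff_hecke p Fact.out ℓ hℓ hℓp k hk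
  heckeU := fun k hk => EisCoeff.eisCoeff_mul_self p Fact.out k hk

/-- Any system agreeing with an Eisenstein system in positive degrees is one. -/
theorem IsEisSystem.congr {e e' : ℕ → ℤ} (he : IsEisSystem p e)
    (h : ∀ k, 1 ≤ k → e' k = e k) : IsEisSystem p e' where
  one := by rw [h 1 le_rfl, he.one]
  hecke := fun ℓ hℓ hℓp k hk => by
    rw [h (k * ℓ) (Nat.mul_pos hk hℓ.pos), h k hk, ← he.hecke ℓ hℓ hℓp k hk]
    by_cases hd : ℓ ∣ k
    · rw [if_pos hd, if_pos hd, h (k / ℓ) (Nat.div_pos (Nat.le_of_dvd hk hd) hℓ.pos)]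
    · rw [if_neg hd, if_neg hd]
  heckeU := fun k hk => by
    rw [h (k * p) (Nat.mul_pos hk (Fact.out : p.Prime).pos), h k hk, he.heckeU k hk]

/-- A cusp form of level `Γ₀(p)` and weight `2` is *Eisenstein modulo `M`* (with respect to the
coefficient system `e`) if all its `q`-coefficients in positive degrees are integers congruent to
`e k` modulo `M`. For `M = 0` this says that the `q`-expansion is `Σ e k q^k`. -/
def IsEisMod (e : ℕ → ℤ) (M : ℕ) (f : CuspForm (CongruenceSubgroup.Gamma0 p) 2) : Prop :=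
  ∀ k : ℕ, 1 ≤ k → ∃ c : ℤ, ModularFormClass.qCoeff f k = (c : ℂ) ∧ (M : ℤ) ∣ c - e k

theorem isEisMod_of_cong {e : ℕ → ℤ} {M : ℕ} (g : ↥(CuspForm.intLattice p 2))
    (h : Cong e M 1 g) : IsEisMod p e M g.1 := by
  intro k hk
  refine ⟨cf p k g, ?_, ?_⟩
  · rw [cf_spec, cfC_apply]
  · simpa using h k hk

theorem exists_cong_of_isEisMod {e : ℕ → ℤ} {M : ℕ}
    (f : CuspForm (CongruenceSubgroup.Gamma0 p) 2) (h : IsEisMod p e M f) :
    ∃ g : ↥(CuspForm.intLattice p 2), g.1 = f ∧ Cong e M 1 g := by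
  have hmem : f ∈ CuspForm.intLattice p 2 :=
    mem_intLattice_of_int p f (fun k hk => by
      obtain ⟨c, hc, -⟩ := h k hk
      exact ⟨c, by rw [cfC_apply, hc]⟩)
  refine ⟨⟨f, hmem⟩, rfl, ?_⟩
  intro k hk
  obtain ⟨c, hc, hdvd⟩ := h k hk
  have h1 : cf p k ⟨f, hmem⟩ = c := by
    apply Int.cast_injective (α := ℂ)
    rw [cf_spec, cfC_apply, hc]
  rw [h1, one_mul]
  exact hdvd

/-- **The S16 frame** (generic coefficient system). The frozen statement of S16 follows from
* `hL` (lower bound): the Eisenstein character `ev` is divisible by `n = eisensteinNumerator p` on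
  every Hecke polynomial acting as zero on the integral lattice;
* `hU` (upper bound): the modulus `M` of any congruence between a cusp form and the Eisenstein
  system divides `n` (including `M = 0`: no cusp form has `q`-expansion `Σ e k q^k`). -/
theorem card_eq_of_bounds' {e : ℕ → ℤ} (he : IsEisSystem p e)
    (hL : ∀ Q : HeckeAlg,
      ((latticeRestrictHom p ∅).toRingHom.comp (heckeEvalForms p 2)) Q = 0 →
        ((eisensteinNumerator p : ℕ) : ℤ) ∣ MvPolynomial.aeval (eisensteinSystem p) Q)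
    (hU : ∀ (M : ℕ) (f : CuspForm (CongruenceSubgroup.Gamma0 p) 2),
      IsEisMod p e M f → M ∣ eisensteinNumerator p) :
    Nat.card
        (↥(heckeLatticeAlgebra p ∅) ⧸
          Ideal.map ((latticeRestrictHom p ∅).toRingHom.comp (heckeEvalForms p 2))
            (eisensteinIdeal p)) =
      eisensteinNumerator p :=
  card_quotient_eq_of_ker p he (eisensteinNumerator p) hL
    (fun M g hg => hU M g.1 (isEisMod_of_cong p g hg))

/-- **The S16 frame** for the coefficient system `σ'(k) = Σ_{d ∣ k, p ∤ d} d`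
(`EisCoeff.eisCoeff p`). -/
theorem card_eq_of_bounds
    (hL : ∀ Q : HeckeAlg,
      ((latticeRestrictHom p ∅).toRingHom.comp (heckeEvalForms p 2)) Q = 0 →
        ((eisensteinNumerator p : ℕ) : ℤ) ∣ MvPolynomial.aeval (eisensteinSystem p) Q)
    (hU : ∀ (M : ℕ) (f : CuspForm (CongruenceSubgroup.Gamma0 p) 2),
      IsEisMod p (EisCoeff.eisCoeff p) M f → M ∣ eisensteinNumerator p) :
    Nat.card
        (↥(heckeLatticeAlgebra p ∅) ⧸
          Ideal.map ((latticeRestrictHom p ∅).toRingHom.comp (heckeEvalForms p 2))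
            (eisensteinIdeal p)) =
      eisensteinNumerator p :=
  card_eq_of_bounds' p (isEisSystem_eisCoeff p) hL hU

/-- The S16 frame with the lower bound given by a cusp form that is Eisenstein modulo
`eisensteinNumerator p`. -/
theorem card_eq_of_bricks
    (hA : ∃ f : CuspForm (CongruenceSubgroup.Gamma0 p) 2,
      IsEisMod p (EisCoeff.eisCoeff p) (eisensteinNumerator p) f)
    (hU : ∀ (M : ℕ) (f : CuspForm (CongruenceSubgroup.Gamma0 p) 2),
      IsEisMod p (EisCoeff.eisCoeff p) M f → M ∣ eisensteinNumerator p) :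
    Nat.card
        (↥(heckeLatticeAlgebra p ∅) ⧸
          Ideal.map ((latticeRestrictHom p ∅).toRingHom.comp (heckeEvalForms p 2))
            (eisensteinIdeal p)) =
      eisensteinNumerator p := by
  obtain ⟨f, hf⟩ := hA
  obtain ⟨g, -, hg⟩ := exists_cong_of_isEisMod p f hf
  exact card_eq_of_bounds p
    (fun Q hQ => dvd_ev_of_cong p (isEisSystem_eisCoeff p) hg Q hQ) hU

end Fermat.Agent.S16.Frame
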