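import Mathlib
import Fermat.Agent.S16.Frame
import Fermat.Agent.S16.LB.Main

/-!
# S16: frame + lower bound.  What is left is exactly the upper bound brick `hU`.
-/

set_option autoImplicit false

open ModularCurve CuspForm

namespace Fermat.Agent.S16.LBFrame

/-- The frozen statement of S16 follows from the upper bound brick alone: the modulus `M` of any
congruence between a weight-2 cusp form of level `Γ₀(p)` and the Eisenstein coefficient system
`σ'(k) = Σ_{d ∣ k, p ∤ d} d` divides `eisensteinNumerator p`. -/
theorem card_eq_of_upper (p : ℕ) [Fact p.Prime]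
    (hU : ∀ (M : ℕ) (f : CuspForm (CongruenceSubgroup.Gamma0 p) 2),
      Fermat.Agent.S16.Frame.IsEisMod p (Fermat.Agent.S16.EisCoeff.eisCoeff p) M f →
        M ∣ eisensteinNumerator p) :
    Nat.card
        (↥(heckeLatticeAlgebra p ∅) ⧸
          Ideal.map ((latticeRestrictHom p ∅).toRingHom.comp (heckeEvalForms p 2))
            (eisensteinIdeal p)) =
      eisensteinNumerator p :=
  Fermat.Agent.S16.Frame.card_eq_of_bounds p
    (fun Q hQ => Fermat.Agent.S16.LB.lower_bound_lattice p Q hQ) hU

end Fermat.Agent.S16.LBFrame
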