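import Mathlib

/-!
# A presentation of `SL(2, ℤ)` modulo `±1`

`PSL(2, ℤ) = ℤ/2 * ℤ/3`, in the following usable form: for every group `K` and elements
`s r : K` with `s ^ 2 = 1` and `r ^ 3 = 1` there is a homomorphism `Φ : SL(2, ℤ) →* K` with
`Φ S = s` and `Φ (S * T) = r`.

Proof: ping-pong (Mathlib `Monoid.CoprodI.lift_injective_of_ping_pong`) for the action
`Q ↦ g * Q * gᵀ` on integer `2 × 2` matrices, plus generation of `SL(2, ℤ)` by `S`, `T`.
-/

set_option autoImplicit false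

open Matrix ModularGroup
open scoped MatrixGroups Pointwise

namespace Fermat.Agent.S16.SL2Pres

/-- the ambient set for ping-pong -/
abbrev Mat : Type := Matrix (Fin 2) (Fin 2) ℤ

lemma conj_formula (a b c d : ℤ) (Q : Mat) :
    (!![a, b; c, d] : Mat) * Q * (!![a, b; c, d] : Mat)ᵀ =
      !![a * (a * Q 0 0 + b * Q 1 0) + b * (a * Q 0 1 + b * Q 1 1),
         c * (a * Q 0 0 + b * Q 1 0) + d * (a * Q 0 1 + b * Q 1 1);
         a * (c * Q 0 0 + d * Q 1 0) + b * (c * Q 0 1 + d * Q 1 1),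
         c * (c * Q 0 0 + d * Q 1 0) + d * (c * Q 0 1 + d * Q 1 1)] := by
  ext i j
  fin_cases i <;> fin_cases j <;>
    simp [Matrix.mul_apply, Fin.sum_univ_two, Matrix.transpose_apply, Matrix.vecMul,
      dotProduct] <;> ring

lemma coe_ST : ((S * T : SL(2, ℤ)) : Mat) = !![0, -1; 1, 1] := by
  rw [Matrix.SpecialLinearGroup.coe_mul, coe_S, coe_T]
  ext i j
  fin_cases i <;> fin_cases j <;> simp [Matrix.mul_apply, Fin.sum_univ_two]

/-- the action `Q ↦ g * Q * gᵀ` as a permutation. -/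
def actPerm (g : SL(2, ℤ)) : Equiv.Perm Mat where
  toFun Q := g.1 * Q * g.1ᵀ
  invFun Q := (g⁻¹).1 * Q * (g⁻¹).1ᵀ
  left_inv Q := by
    have h : (g⁻¹ : SL(2, ℤ)).1 * g.1 = 1 := by
      rw [← Matrix.SpecialLinearGroup.coe_mul, inv_mul_cancel, Matrix.SpecialLinearGroup.coe_one]
    have h' : g.1ᵀ * (g⁻¹ : SL(2, ℤ)).1ᵀ = 1 := by
      rw [← Matrix.transpose_mul, h, Matrix.transpose_one]
    calc (g⁻¹).1 * (g.1 * Q * g.1ᵀ) * (g⁻¹).1ᵀ
        = ((g⁻¹).1 * g.1) * Q * (g.1ᵀ * (g⁻¹).1ᵀ) := by simp only [Matrix.mul_assoc]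
      _ = Q := by rw [h, h', Matrix.one_mul, Matrix.mul_one]
  right_inv Q := by
    have h : g.1 * (g⁻¹ : SL(2, ℤ)).1 = 1 := by
      rw [← Matrix.SpecialLinearGroup.coe_mul, mul_inv_cancel, Matrix.SpecialLinearGroup.coe_one]
    have h' : (g⁻¹ : SL(2, ℤ)).1ᵀ * g.1ᵀ = 1 := by
      rw [← Matrix.transpose_mul, h, Matrix.transpose_one]
    calc g.1 * ((g⁻¹).1 * Q * (g⁻¹).1ᵀ) * g.1ᵀ
        = (g.1 * (g⁻¹).1) * Q * ((g⁻¹).1ᵀ * g.1ᵀ) := by simp only [Matrix.mul_assoc]
      _ = Q := by rw [h, h', Matrix.one_mul, Matrix.mul_one]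

@[simp] lemma actPerm_apply (g : SL(2, ℤ)) (Q : Mat) : actPerm g Q = g.1 * Q * g.1ᵀ := rfl

/-- the action as a monoid homomorphism. -/
def actHom : SL(2, ℤ) →* Equiv.Perm Mat where
  toFun := actPerm
  map_one' := by
    ext Q : 1
    simp
  map_mul' g h := by
    ext Q : 1
    simp only [actPerm_apply, Equiv.Perm.coe_mul, Function.comp_apply,
      Matrix.SpecialLinearGroup.coe_mul, Matrix.transpose_mul, Matrix.mul_assoc]

@[simp] lemma actHom_apply (g : SL(2, ℤ)) (Q : Mat) : actHom g Q = g.1 * Q * g.1ᵀ := rfl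

lemma actHom_S_apply (Q : Mat) :
    actHom S Q = !![Q 1 1, -Q 1 0; -Q 0 1, Q 0 0] := by
  rw [actHom_apply, coe_S, conj_formula]
  ext i j
  fin_cases i <;> fin_cases j <;> simp

lemma actHom_R_apply (Q : Mat) :
    actHom (S * T) Q =
      !![Q 1 1, -Q 1 0 - Q 1 1; -Q 0 1 - Q 1 1, Q 0 0 + Q 1 0 + Q 0 1 + Q 1 1] := by
  rw [actHom_apply, coe_ST, conj_formula]
  ext i j
  fin_cases i <;> fin_cases j <;> simp <;> ring

lemma actHom_S_sq : actHom S ^ 2 = 1 := by
  ext Q : 1
  rw [pow_two, Equiv.Perm.coe_mul, Function.comp_apply, actHom_S_apply, actHom_S_apply]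
  ext i j
  fin_cases i <;> fin_cases j <;> simp

lemma actHom_R_sq_apply (Q : Mat) :
    (actHom (S * T) ^ 2) Q =
      !![Q 0 0 + Q 1 0 + Q 0 1 + Q 1 1, -Q 0 0 - Q 1 0; -Q 0 0 - Q 0 1, Q 0 0] := by
  rw [pow_two, Equiv.Perm.coe_mul, Function.comp_apply, actHom_R_apply, actHom_R_apply]
  ext i j
  fin_cases i <;> fin_cases j <;> simp <;> ring

lemma actHom_R_cube : actHom (S * T) ^ 3 = 1 := by
  ext Q : 1
  rw [pow_succ, Equiv.Perm.coe_mul, Function.comp_apply, actHom_R_apply, actHom_R_sq_apply]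
  ext i j
  fin_cases i <;> fin_cases j <;> simp <;> ring

/-! ### Homomorphisms out of finite cyclic groups -/

section Cyc

variable {K : Type*} [Group K]

/-- the homomorphism `ℤ/n → K`, `1 ↦ g`, for `g ^ n = 1`. -/
def cycHom (n : ℕ) (g : K) (hg : g ^ n = 1) : Multiplicative (ZMod n) →* K :=
  AddMonoidHom.toMultiplicativeLeft
    (ZMod.lift n ⟨zmultiplesHom (Additive K) (Additive.ofMul g), by
      rw [zmultiplesHom_apply, natCast_zsmul, ← ofMul_pow, hg, ofMul_one]⟩)

lemma cycHom_ofAdd_intCast (n : ℕ) (g : K) (hg : g ^ n = 1) (k : ℤ) :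
    cycHom n g hg (Multiplicative.ofAdd (k : ZMod n)) = g ^ k := by
  simp only [cycHom, AddMonoidHom.coe_toMultiplicativeLeft, Function.comp_apply, toAdd_ofAdd,
    ZMod.lift_coe, zmultiplesHom_apply]
  rw [← ofMul_zpow, toMul_ofMul]

lemma cycHom_ofAdd_one (n : ℕ) (g : K) (hg : g ^ n = 1) :
    cycHom n g hg (Multiplicative.ofAdd (1 : ZMod n)) = g := by
  have := cycHom_ofAdd_intCast n g hg 1
  simpa using this

lemma cycHom_ofAdd_two (n : ℕ) (g : K) (hg : g ^ n = 1) :
    cycHom n g hg (Multiplicative.ofAdd (2 : ZMod n)) = g ^ 2 := by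
  have := cycHom_ofAdd_intCast n g hg 2
  simpa using this

end Cyc

/-! ### Ping-pong -/

/-- the two free factors: `true ↦ ℤ/2`, `false ↦ ℤ/3`. -/
def H : Bool → Type
  | true => Multiplicative (ZMod 2)
  | false => Multiplicative (ZMod 3)

instance instGroupH : ∀ b, Group (H b)
  | true => inferInstanceAs (Group (Multiplicative (ZMod 2)))
  | false => inferInstanceAs (Group (Multiplicative (ZMod 3)))

/-- the family of homomorphisms determined by an element of order 2 and one of order 3. -/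
def fam {K : Type*} [Group K] (s r : K) (hs : s ^ 2 = 1) (hr : r ^ 3 = 1) : ∀ b, H b →* K
  | true => cycHom 2 s hs
  | false => cycHom 3 r hr

/-- the identification `ℤ/2 = H true`. -/
def toH2 : Multiplicative (ZMod 2) ≃* H true := MulEquiv.refl _

/-- the identification `ℤ/3 = H false`. -/
def toH3 : Multiplicative (ZMod 3) ≃* H false := MulEquiv.refl _

lemma fam_true {K : Type*} [Group K] (s r : K) (hs : s ^ 2 = 1) (hr : r ^ 3 = 1)
    (x : Multiplicative (ZMod 2)) : fam s r hs hr true (toH2 x) = cycHom 2 s hs x := rfl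

lemma fam_false {K : Type*} [Group K] (s r : K) (hs : s ^ 2 = 1) (hr : r ^ 3 = 1)
    (x : Multiplicative (ZMod 3)) : fam s r hs hr false (toH3 x) = cycHom 3 r hr x := rfl

/-- ping-pong set for `S` -/
def XP : Set Mat := {Q | 0 ≤ Q 0 0 ∧ 0 ≤ Q 1 1 ∧ 0 < Q 0 1 ∧ 0 < Q 1 0}

/-- ping-pong set for `R = S * T` -/
def XN : Set Mat := {Q | 0 ≤ Q 0 0 ∧ 0 ≤ Q 1 1 ∧ Q 0 1 < 0 ∧ Q 1 0 < 0}

/-- the ping-pong sets -/
def X : Bool → Set Mat
  | true => XP
  | false => XN

lemma S_smul_XN : actHom S • XN ⊆ XP := by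
  rintro _ ⟨Q, ⟨h00, h11, h01, h10⟩, rfl⟩
  show actHom S Q ∈ XP
  rw [actHom_S_apply]
  refine ⟨?_, ?_, ?_, ?_⟩ <;> simp <;> assumption

lemma R_smul_XP : actHom (S * T) • XP ⊆ XN := by
  rintro _ ⟨Q, ⟨h00, h11, h01, h10⟩, rfl⟩
  show actHom (S * T) Q ∈ XN
  rw [actHom_R_apply]
  refine ⟨?_, ?_, ?_, ?_⟩ <;> simp <;> linarith

lemma R_sq_smul_XP : (actHom (S * T) ^ 2) • XP ⊆ XN := by
  rintro _ ⟨Q, ⟨h00, h11, h01, h10⟩, rfl⟩
  show (actHom (S * T) ^ 2) Q ∈ XN
  rw [actHom_R_sq_apply]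
  refine ⟨?_, ?_, ?_, ?_⟩ <;> simp <;> linarith

lemma zmod_two_cases (z : ZMod 2) : z = 0 ∨ z = 1 := by
  revert z; decide

lemma zmod_three_cases (z : ZMod 3) : z = 0 ∨ z = 1 ∨ z = 2 := by
  revert z; decide

/-- the canonical map from the free product `ℤ/2 * ℤ/3` to permutations of `Mat`. -/
def rho : Monoid.CoprodI H →* Equiv.Perm Mat :=
  Monoid.CoprodI.lift (fam (actHom S) (actHom (S * T)) actHom_S_sq actHom_R_cube)

lemma rho_injective : Function.Injective rho := by
  refine Monoid.CoprodI.lift_injective_of_ping_pong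
    (fam (actHom S) (actHom (S * T)) actHom_S_sq actHom_R_cube) (Or.inr ⟨false, ?_⟩) X ?_ ?_ ?_
  · show 3 ≤ Cardinal.mk (Multiplicative (ZMod 3))
    rw [Cardinal.mk_fintype, Fintype.card_multiplicative, ZMod.card]
    norm_num
  · rintro (_ | _)
    · exact ⟨!![0, -1; -1, 0], by simp [X, XN]⟩
    · exact ⟨!![0, 1; 1, 0], by simp [X, XP]⟩
  · rintro (_ | _) (_ | _) hij
    · exact absurd rfl hij
    · show Disjoint XN XP
      rw [Set.disjoint_left]
      rintro Q ⟨_, _, h01, _⟩ ⟨_, _, h01', _⟩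
      linarith
    · show Disjoint XP XN
      rw [Set.disjoint_left]
      rintro Q ⟨_, _, h01, _⟩ ⟨_, _, h01', _⟩
      linarith
    · exact absurd rfl hij
  · rintro (_ | _) (_ | _) hij
    · exact absurd rfl hij
    · -- i = false (order 3), j = true
      intro h hh
      obtain ⟨y, hy⟩ : ∃ y, h = toH3 y := ⟨toH3.symm h, (toH3.apply_symm_apply h).symm⟩
      rw [hy] at hh ⊢
      show fam (actHom S) (actHom (S * T)) actHom_S_sq actHom_R_cube false (toH3 y) • XP ⊆ XN
      rw [fam_false]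
      have hy' : y = Multiplicative.ofAdd (Multiplicative.toAdd y) := rfl
      rcases zmod_three_cases (Multiplicative.toAdd y) with h0 | h1 | h2
      · rw [hy', h0] at hh
        exact absurd (map_one toH3) hh
      · rw [hy', h1, cycHom_ofAdd_one]
        exact R_smul_XP
      · rw [hy', h2, cycHom_ofAdd_two]
        exact R_sq_smul_XP
    · -- i = true (order 2), j = false
      intro h hh
      obtain ⟨y, hy⟩ : ∃ y, h = toH2 y := ⟨toH2.symm h, (toH2.apply_symm_apply h).symm⟩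
      rw [hy] at hh ⊢
      show fam (actHom S) (actHom (S * T)) actHom_S_sq actHom_R_cube true (toH2 y) • XN ⊆ XP
      rw [fam_true]
      have hy' : y = Multiplicative.ofAdd (Multiplicative.toAdd y) := rfl
      rcases zmod_two_cases (Multiplicative.toAdd y) with h0 | h1
      · rw [hy', h0] at hh
        exact absurd (map_one toH2) hh
      · rw [hy', h1, cycHom_ofAdd_one]
        exact S_smul_XN
    · exact absurd rfl hij

/-- the generator of order 2 in the free product -/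
def genS : Monoid.CoprodI H := Monoid.CoprodI.of (toH2 (Multiplicative.ofAdd (1 : ZMod 2)))

/-- the generator of order 3 in the free product -/
def genR : Monoid.CoprodI H := Monoid.CoprodI.of (toH3 (Multiplicative.ofAdd (1 : ZMod 3)))

lemma lift_genS {K : Type*} [Group K] (s r : K) (hs : s ^ 2 = 1) (hr : r ^ 3 = 1) :
    Monoid.CoprodI.lift (fam s r hs hr) genS = s := by
  rw [genS, Monoid.CoprodI.lift_of, fam_true]
  exact cycHom_ofAdd_one 2 s hs

lemma lift_genR {K : Type*} [Group K] (s r : K) (hs : s ^ 2 = 1) (hr : r ^ 3 = 1) :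
    Monoid.CoprodI.lift (fam s r hs hr) genR = r := by
  rw [genR, Monoid.CoprodI.lift_of, fam_false]
  exact cycHom_ofAdd_one 3 r hr

lemma rho_genS : rho genS = actHom S := lift_genS _ _ _ _

lemma rho_genR : rho genR = actHom (S * T) := lift_genR _ _ _ _

lemma actHom_mem_range (g : SL(2, ℤ)) : actHom g ∈ rho.range := by
  have hS : S ∈ rho.range.comap actHom := ⟨_, rho_genS⟩
  have hR : S * T ∈ rho.range.comap actHom := ⟨_, rho_genR⟩
  have hT : T ∈ rho.range.comap actHom := by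
    have := (rho.range.comap actHom).mul_mem ((rho.range.comap actHom).inv_mem hS) hR
    simpa using this
  have hle : (⊤ : Subgroup SL(2, ℤ)) ≤ rho.range.comap actHom := by
    rw [← SpecialLinearGroup.SL2Z_generators, Subgroup.closure_le]
    rintro g (rfl | rfl)
    · exact hS
    · exact hT
  exact hle (Subgroup.mem_top g)

/-- **Presentation of `PSL(2, ℤ)`**: elements `s`, `r` of a group with `s ^ 2 = 1`, `r ^ 3 = 1`
define a homomorphism on `SL(2, ℤ)` with `S ↦ s`, `S * T ↦ r`. -/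
theorem exists_hom {K : Type*} [Group K] (s r : K) (hs : s ^ 2 = 1) (hr : r ^ 3 = 1) :
    ∃ Φ : SL(2, ℤ) →* K, Φ S = s ∧ Φ (S * T) = r := by
  let e := MonoidHom.ofInjective rho_injective
  let Φ : SL(2, ℤ) →* K :=
    (Monoid.CoprodI.lift (fam s r hs hr)).comp
      (e.symm.toMonoidHom.comp (actHom.codRestrict rho.range actHom_mem_range))
  refine ⟨Φ, ?_, ?_⟩
  · have h1 : e.symm (actHom.codRestrict rho.range actHom_mem_range S) = genS := by
      rw [MulEquiv.symm_apply_eq]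
      exact Subtype.ext rho_genS.symm
    show Monoid.CoprodI.lift (fam s r hs hr)
      (e.symm (actHom.codRestrict rho.range actHom_mem_range S)) = s
    rw [h1, lift_genS]
  · have h1 : e.symm (actHom.codRestrict rho.range actHom_mem_range (S * T)) = genR := by
      rw [MulEquiv.symm_apply_eq]
      exact Subtype.ext rho_genR.symm
    show Monoid.CoprodI.lift (fam s r hs hr)
      (e.symm (actHom.codRestrict rho.range actHom_mem_range (S * T))) = r
    rw [h1, lift_genR]

end Fermat.Agent.S16.SL2Pres
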