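import Mathlib
import Fermat.Agent.S16.SL2Pres

/-!
# Cocycles of `SL(2, ℤ)` with values in functions on an `SL(2, ℤ)`-set

For an `SL(2, ℤ)`-set `X` and an abelian group `A`, a *cocycle* is a map
`c : SL(2, ℤ) → X → A` with `c (g * h) x = c g (h • x) + c h x`
(i.e. `g ↦ [(x, m) ↦ (g • x, m + c g x)]` is an action on `X × A`).

Main result (`exists_cocycle`): if `S • S • x = x` and `(S*T) • (S*T) • (S*T) • x = x` on `X`,
then a cocycle can be prescribed freely on `S` and `S * T`, subject only to the orbit-sum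
relations.  This is the presentation `PSL(2, ℤ) = ℤ/2 * ℤ/3` (`SL2Pres.exists_hom`).
-/

set_option autoImplicit false

open Matrix ModularGroup
open scoped MatrixGroups

namespace Fermat.Agent.S16.Cocycle

variable {X : Type*} {A : Type*} [AddCommGroup A]

/-- skew product permutation of `X × A`: `(x, m) ↦ (σ x, m + v x)`. -/
def skew (σ : Equiv.Perm X) (v : X → A) : Equiv.Perm (X × A) where
  toFun p := (σ p.1, p.2 + v p.1)
  invFun p := (σ.symm p.1, p.2 - v (σ.symm p.1))
  left_inv p := by simp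
  right_inv p := by simp

@[simp] lemma skew_apply (σ : Equiv.Perm X) (v : X → A) (p : X × A) :
    skew σ v p = (σ p.1, p.2 + v p.1) := rfl

lemma skew_mul (σ τ : Equiv.Perm X) (v v' : X → A) :
    skew σ v * skew τ v' = skew (σ * τ) (fun x => v' x + v (τ x)) := by
  ext p : 1
  simp [add_assoc]

lemma skew_inv (σ : Equiv.Perm X) (v : X → A) :
    (skew σ v)⁻¹ = skew σ⁻¹ (fun x => - v (σ⁻¹ x)) := by
  rw [inv_eq_iff_mul_eq_one, skew_mul]
  ext p : 1
  simp

section Action

variable [MulAction SL(2, ℤ) X]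

/-- the cocycle identity -/
def IsCocycle (c : SL(2, ℤ) → X → A) : Prop :=
  ∀ (g h : SL(2, ℤ)) (x : X), c (g * h) x = c g (h • x) + c h x

namespace IsCocycle

variable {c : SL(2, ℤ) → X → A}

lemma one (hc : IsCocycle c) (x : X) : c 1 x = 0 := by
  have h := hc 1 1 x
  rw [mul_one, one_smul] at h
  simpa using h

lemma inv (hc : IsCocycle c) (g : SL(2, ℤ)) (x : X) : c g⁻¹ x = - c g (g⁻¹ • x) := by
  have h := hc g g⁻¹ x
  rw [mul_inv_cancel, hc.one] at h
  exact eq_neg_of_add_eq_zero_right h.symm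

lemma pow (hc : IsCocycle c) (g : SL(2, ℤ)) (k : ℕ) (x : X) :
    c (g ^ k) x = ∑ i ∈ Finset.range k, c g (g ^ i • x) := by
  induction k with
  | zero => simp [hc.one]
  | succ k ih =>
    rw [pow_succ', hc g (g ^ k) x, ih, Finset.sum_range_succ, add_comm]

/-- conjugation formula: if `t` fixes `g⁻¹ • x`, then `c (g t g⁻¹) x = c t (g⁻¹ • x)`. -/
lemma conj (hc : IsCocycle c) (g t : SL(2, ℤ)) (x : X) (ht : t • g⁻¹ • x = g⁻¹ • x) :
    c (g * t * g⁻¹) x = c t (g⁻¹ • x) := by
  rw [mul_assoc, hc g (t * g⁻¹) x, hc t g⁻¹ x, mul_smul, ht, hc.inv g x]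
  abel

/-- a cocycle is determined by its values on `S` and `S * T`. -/
lemma ext_of_generators {c c' : SL(2, ℤ) → X → A} (hc : IsCocycle c) (hc' : IsCocycle c')
    (hS : c S = c' S) (hR : c (S * T) = c' (S * T)) : c = c' := by
  have hT : c T = c' T := by
    funext x
    have e : (T : SL(2, ℤ)) = S⁻¹ * (S * T) := by group
    rw [e, hc, hc', hc.inv, hc'.inv, hS, hR]
  funext g
  have hg : g ∈ Subgroup.closure ({S, T} : Set SL(2, ℤ)) := by
    rw [SpecialLinearGroup.SL2Z_generators]; exact Subgroup.mem_top g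
  induction hg using Subgroup.closure_induction with
  | mem g hg =>
    rcases hg with rfl | rfl
    · exact hS
    · exact hT
  | one => funext x; rw [hc.one, hc'.one]
  | mul g h _ _ ihg ihh => funext x; rw [hc, hc', ihg, ihh]
  | inv g _ ih => funext x; rw [hc.inv, hc'.inv, ih]

/-- value on `T` in terms of the values on `S` and `S * T`. -/
lemma apply_T (hc : IsCocycle c) (x : X) : c T x = c (S * T) x - c S (T • x) := by
  have e : (T : SL(2, ℤ)) = S⁻¹ * (S * T) := by group
  have h := hc S⁻¹ (S * T) x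
  rw [← e, hc.inv, ← mul_smul, ← mul_assoc, inv_mul_cancel, one_mul] at h
  rw [h]; abel

/-- the homomorphism `γ ↦ c γ x₀` on a subgroup fixing `x₀`. -/
def toHom (hc : IsCocycle c) (Γ : Subgroup SL(2, ℤ)) (x₀ : X)
    (hfix : ∀ γ ∈ Γ, γ • x₀ = x₀) : Additive Γ →+ A where
  toFun γ := c (Additive.toMul γ : Γ) x₀
  map_zero' := hc.one x₀
  map_add' γ δ := by
    show c ((Additive.toMul γ : Γ) * (Additive.toMul δ : Γ) : SL(2, ℤ)) x₀ = _
    rw [hc, hfix _ (Additive.toMul δ : Γ).2]

@[simp] lemma toHom_apply (hc : IsCocycle c) (Γ : Subgroup SL(2, ℤ)) (x₀ : X)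
    (hfix : ∀ γ ∈ Γ, γ • x₀ = x₀) (γ : Γ) :
    hc.toHom Γ x₀ hfix (Additive.ofMul γ) = c γ x₀ := rfl

end IsCocycle

/-- **Cocycle extension**: on an `SL(2, ℤ)`-set where `S² = (ST)³ = 1` act trivially, a cocycle
may be prescribed on `S` and `S * T` subject only to the orbit-sum relations. -/
theorem exists_cocycle (u w : X → A)
    (hS : ∀ x : X, (S : SL(2, ℤ)) • (S : SL(2, ℤ)) • x = x)
    (hR : ∀ x : X, (S * T : SL(2, ℤ)) • (S * T : SL(2, ℤ)) • (S * T : SL(2, ℤ)) • x = x)
    (hu : ∀ x, u x + u ((S : SL(2, ℤ)) • x) = 0)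
    (hw : ∀ x, w x + w ((S * T : SL(2, ℤ)) • x) +
      w ((S * T : SL(2, ℤ)) • (S * T : SL(2, ℤ)) • x) = 0) :
    ∃ c : SL(2, ℤ) → X → A, IsCocycle c ∧ c S = u ∧ c (S * T) = w := by
  set s : Equiv.Perm (X × A) := skew (MulAction.toPerm (S : SL(2, ℤ))) u with hs_def
  set r : Equiv.Perm (X × A) := skew (MulAction.toPerm (S * T : SL(2, ℤ))) w with hr_def
  have hs : s ^ 2 = 1 := by
    ext p : 1
    rw [pow_two, Equiv.Perm.coe_mul, Function.comp_apply, hs_def, skew_apply, skew_apply]
    simp only [MulAction.toPerm_apply, Equiv.Perm.coe_one, id_eq]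
    rw [hS, add_assoc, hu, add_zero]
  have hr : r ^ 3 = 1 := by
    ext p : 1
    rw [pow_succ, pow_two, Equiv.Perm.coe_mul, Equiv.Perm.coe_mul, Function.comp_apply,
      Function.comp_apply, hr_def, skew_apply, skew_apply, skew_apply]
    simp only [MulAction.toPerm_apply, Equiv.Perm.coe_one, id_eq]
    rw [hR, add_assoc, add_assoc, ← add_assoc (w p.1), hw, add_zero]
  obtain ⟨Φ, hΦS, hΦR⟩ := SL2Pres.exists_hom s r hs hr
  -- every `Φ g` is a skew product over `g`
  have key : ∀ g : SL(2, ℤ), ∃ v : X → A, Φ g = skew (MulAction.toPerm g) v := by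
    intro g
    have hg : g ∈ Subgroup.closure ({S, S * T} : Set SL(2, ℤ)) := by
      have hle : Subgroup.closure ({S, T} : Set SL(2, ℤ)) ≤
          Subgroup.closure ({S, S * T} : Set SL(2, ℤ)) := by
        rw [Subgroup.closure_le]
        rintro g (rfl | rfl)
        · exact Subgroup.subset_closure (by simp)
        · have e : (T : SL(2, ℤ)) = S⁻¹ * (S * T) := by group
          rw [e]
          exact Subgroup.mul_mem _ (Subgroup.inv_mem _ (Subgroup.subset_closure (by simp)))
            (Subgroup.subset_closure (by simp))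
      apply hle
      rw [SpecialLinearGroup.SL2Z_generators]; exact Subgroup.mem_top g
    induction hg using Subgroup.closure_induction with
    | mem g hg =>
      rcases hg with rfl | rfl
      · exact ⟨u, hΦS⟩
      · exact ⟨w, hΦR⟩
    | one => exact ⟨0, by rw [map_one]; ext p : 1; simp⟩
    | mul g h _ _ ihg ihh =>
      obtain ⟨v, hv⟩ := ihg
      obtain ⟨v', hv'⟩ := ihh
      refine ⟨fun x => v' x + v (h • x), ?_⟩
      rw [map_mul, hv, hv']
      ext p : 1
      simp [mul_smul, add_assoc]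
    | inv g _ ih =>
      obtain ⟨v, hv⟩ := ih
      refine ⟨fun x => - v (g⁻¹ • x), ?_⟩
      have e : (MulAction.toPerm g : Equiv.Perm X)⁻¹ = MulAction.toPerm g⁻¹ :=
        (map_inv (MulAction.toPermHom SL(2, ℤ) X) g).symm
      rw [map_inv, hv, skew_inv, e]
      rfl
  choose c hc using key
  refine ⟨c, ?_, ?_, ?_⟩
  · intro g h x
    have h1 : Φ (g * h) (x, 0) = (Φ g) ((Φ h) (x, 0)) := by
      rw [map_mul]; rfl
    rw [hc, hc, hc] at h1
    simp only [skew_apply, MulAction.toPerm_apply, zero_add, Prod.mk.injEq] at h1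
    rw [h1.2, add_comm]
  · funext x
    have h1 := congrArg (fun σ : Equiv.Perm (X × A) => (σ (x, 0)).2) (hc S)
    rw [hΦS] at h1
    simpa [hs_def] using h1.symm
  · funext x
    have h1 := congrArg (fun σ : Equiv.Perm (X × A) => (σ (x, 0)).2) (hc (S * T))
    rw [hΦR] at h1
    simpa [hr_def] using h1.symm

end Action

end Fermat.Agent.S16.Cocycle
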