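/-
S16 lower bound, arithmetic part (helper37): Gauss sums of binary quadratic forms over `ZMod p`.

Main result: `sum_binary` : for an odd prime `p`, `j ≠ 0` and a binary form
`m a² - ε a b + b²` whose discriminant `ε² - 4m` is a non-residue mod `p`,
`∑ a b, e(j (m a² - ε a b + b²)/p) = -p`.
-/
import Mathlib

set_option autoImplicit false

namespace Fermat.Agent.S16.GaussBinary

open Finset ZMod

variable {p : ℕ} [Fact p.Prime]

/-- The complex-valued quadratic character of `ZMod p`. -/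
noncomputable def chiC (p : ℕ) [Fact p.Prime] : MulChar (ZMod p) ℂ :=
  (quadraticChar (ZMod p)).ringHomComp (Int.castRingHom ℂ)

lemma chiC_apply (a : ZMod p) : chiC p a = ((quadraticChar (ZMod p) a : ℤ) : ℂ) := rfl

lemma ringChar_ne_two (hp2 : p ≠ 2) : ringChar (ZMod p) ≠ 2 := by
  rw [ZMod.ringChar_zmod_n]; exact hp2

lemma chiC_isQuadratic : (chiC p).IsQuadratic :=
  (quadraticChar_isQuadratic (ZMod p)).comp _

lemma chiC_ne_one (hp2 : p ≠ 2) : chiC p ≠ 1 := by
  obtain ⟨a, ha⟩ := quadraticChar_exists_neg_one' (ringChar_ne_two hp2)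
  intro h
  have h1 : chiC p a = 1 := by rw [h]; exact MulChar.one_apply_coe a
  rw [chiC_apply, ha] at h1
  norm_num at h1

lemma chiC_sq_of_ne_zero {a : ZMod p} (ha : a ≠ 0) : chiC p a ^ 2 = 1 := by
  rw [chiC_apply]
  have := quadraticChar_sq_one (F := ZMod p) ha
  exact_mod_cast congrArg (Int.cast : ℤ → ℂ) this

/-- `∑ t, ψ (c t) = 0` for `c ≠ 0`. -/
lemma sum_stdAddChar_mul (c : ZMod p) (hc : c ≠ 0) :
    ∑ t : ZMod p, (stdAddChar (c * t) : ℂ) = 0 := by
  have hprim := isPrimitive_stdAddChar p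
  have hne : AddChar.mulShift (stdAddChar (N := p)) c ≠ 1 := hprim hc
  have := AddChar.sum_eq_zero_of_ne_one hne
  simpa [AddChar.mulShift_apply] using this

/-- quadratic Gauss sum in the form `∑ x, ψ (c x²)`. -/
lemma sum_stdAddChar_mul_sq (hp2 : p ≠ 2) (c : ZMod p) (hc : c ≠ 0) :
    ∑ x : ZMod p, (stdAddChar (c * x ^ 2) : ℂ) = chiC p c * gaussSum (chiC p) stdAddChar := by
  classical
  have h1 : ∑ x : ZMod p, (stdAddChar (c * x ^ 2) : ℂ)
      = ∑ t : ZMod p, ((quadraticChar (ZMod p) t : ℤ) + 1 : ℂ) * stdAddChar (c * t) := by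
    rw [← Finset.sum_fiberwise_of_maps_to (s := univ) (t := univ) (g := fun x : ZMod p => x ^ 2)
      (fun _ _ => mem_univ _)]
    refine Finset.sum_congr rfl fun t _ => ?_
    rw [Finset.sum_congr rfl (g := fun _ => (stdAddChar (c * t) : ℂ))
      (fun x hx => by rw [(mem_filter.mp hx).2])]
    rw [Finset.sum_const, nsmul_eq_mul]
    congr 1
    have := quadraticChar_card_sqrts (ringChar_ne_two hp2) t
    have h2 : (#{x : ZMod p | x ^ 2 = t}.toFinset : ℤ) = #(univ.filter fun x : ZMod p => x ^ 2 = t) := by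
      congr 2
      ext x
      simp
    rw [h2] at this
    exact_mod_cast congrArg (Int.cast : ℤ → ℂ) this
  rw [h1]
  simp_rw [add_mul, one_mul]
  rw [Finset.sum_add_distrib, sum_stdAddChar_mul c hc, add_zero]
  have hu : IsUnit c := isUnit_iff_ne_zero.mpr hc
  obtain ⟨u, rfl⟩ := hu
  have h3 := gaussSum_mulShift (chiC p) (stdAddChar (N := p)) u
  have h4 : ∑ t : ZMod p, ((quadraticChar (ZMod p) t : ℤ) : ℂ) * stdAddChar ((u : ZMod p) * t)
      = gaussSum (chiC p) (AddChar.mulShift stdAddChar (u : ZMod p)) := by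
    simp [gaussSum, chiC_apply, AddChar.mulShift_apply]
  rw [h4]
  have h5 : chiC p (u : ZMod p) ^ 2 = 1 := chiC_sq_of_ne_zero hc
  calc gaussSum (chiC p) (AddChar.mulShift stdAddChar (u : ZMod p))
      = chiC p u ^ 2 * gaussSum (chiC p) (AddChar.mulShift stdAddChar (u : ZMod p)) := by
        rw [h5, one_mul]
    _ = chiC p u * gaussSum (chiC p) stdAddChar := by rw [← h3]; ring

/-- The Gauss sum of an anisotropic binary quadratic form over `ZMod p` equals `-p`. -/
theorem sum_binary (hp2 : p ≠ 2) (m ε j : ZMod p) (hj : j ≠ 0)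
    (hd : quadraticChar (ZMod p) (ε ^ 2 - 4 * m) = -1) :
    ∑ a : ZMod p, ∑ b : ZMod p, (stdAddChar (j * (m * a ^ 2 - ε * a * b + b ^ 2)) : ℂ)
      = -(p : ℂ) := by
  have h2 : (2 : ZMod p) ≠ 0 := by
    intro h
    have : ringChar (ZMod p) = 2 := by
      have h2' : ((2 : ℕ) : ZMod p) = 0 := by exact_mod_cast h
      have hdvd := (ringChar.spec (ZMod p) 2).mp h2'
      rw [ZMod.ringChar_zmod_n] at hdvd ⊢
      exact (Nat.prime_dvd_prime_iff_eq (Fact.out) Nat.prime_two).mp hdvd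
    exact ringChar_ne_two hp2 this
  have h4 : (4 : ZMod p) ≠ 0 := by
    have : (4 : ZMod p) = 2 * 2 := by norm_num
    rw [this]; exact mul_ne_zero h2 h2
  set D : ZMod p := ε ^ 2 - 4 * m with hD
  have hD0 : D ≠ 0 := by
    intro h
    rw [h, MulChar.map_zero] at hd
    norm_num at hd
  set c : ZMod p := -D / 4 with hc
  have hc0 : c ≠ 0 := by
    rw [hc]; exact div_ne_zero (neg_ne_zero.mpr hD0) h4
  -- complete the square
  have key : ∀ a b : ZMod p, j * (m * a ^ 2 - ε * a * b + b ^ 2)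
      = j * c * a ^ 2 + j * (b - ε * a / 2) ^ 2 := by
    intro a b
    rw [hc, hD]
    field_simp
    ring
  have inner : ∀ a : ZMod p, ∑ b : ZMod p, (stdAddChar (j * (m * a ^ 2 - ε * a * b + b ^ 2)) : ℂ)
      = stdAddChar (j * c * a ^ 2) * ∑ b : ZMod p, (stdAddChar (j * b ^ 2) : ℂ) := by
    intro a
    rw [Finset.mul_sum]
    rw [← Equiv.sum_comp (Equiv.subRight (ε * a / 2))
      (fun b => (stdAddChar (j * c * a ^ 2) : ℂ) * stdAddChar (j * b ^ 2))]
    refine Finset.sum_congr rfl fun b _ => ?_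
    rw [key a b, AddChar.map_add_eq_mul]
    simp [Equiv.subRight]
  simp_rw [inner]
  rw [← Finset.sum_mul, sum_stdAddChar_mul_sq hp2 (j * c) (mul_ne_zero hj hc0),
    sum_stdAddChar_mul_sq hp2 j hj]
  have hg : gaussSum (chiC p) stdAddChar ^ 2 = chiC p (-1) * (p : ℂ) := by
    have := gaussSum_sq (chiC_ne_one hp2) chiC_isQuadratic (isPrimitive_stdAddChar p)
    rw [ZMod.card] at this
    exact this
  have hj2 : chiC p j ^ 2 = 1 := chiC_sq_of_ne_zero hj
  have hval : chiC p c * chiC p (-1) = -1 := by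
    rw [← map_mul, chiC_apply]
    have h5 : c * -1 = D * (2⁻¹) ^ 2 := by
      rw [hc]; field_simp; ring
    rw [h5, map_mul, hd]
    have h6 : quadraticChar (ZMod p) ((2⁻¹ : ZMod p) ^ 2) = 1 :=
      quadraticChar_sq_one' (inv_ne_zero h2)
    rw [h6]; norm_num
  calc chiC p (j * c) * gaussSum (chiC p) stdAddChar * (chiC p j * gaussSum (chiC p) stdAddChar)
      = chiC p j ^ 2 * chiC p c * gaussSum (chiC p) stdAddChar ^ 2 := by rw [map_mul]; ring
    _ = chiC p c * (chiC p (-1) * (p : ℂ)) := by rw [hj2, hg, one_mul]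
    _ = (chiC p c * chiC p (-1)) * (p : ℂ) := by ring
    _ = -(p : ℂ) := by rw [hval]; ring

end Fermat.Agent.S16.GaussBinary
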