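/-
S16 lower bound, arithmetic part (helper37): the uniform quaternary lattice.

For integers `b c r` put `q = 4b - 1`, `p = q c - r²` and
  `Q(x₁,x₂,y₁,y₂) = x₁² + x₁x₂ + b x₂² + r (x₁y₂ - x₂y₁) + c (y₁² + y₁y₂ + b y₂²)`.
Its Gram matrix `gram b c r` satisfies `gram * gramDual = p`, `det gram = p²`, is positive
definite when `b, c ≥ 1`, `p > 0`; the reduction mod `p` of the dual form has Gauss sums `-p³`
over `(ZMod p)⁴` when `-q` is a non-residue mod `p`.
-/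
import Mathlib
import Fermat.Agent.S16.GaussBinary

set_option autoImplicit false

namespace Fermat.Agent.S16.Lattice

open Matrix Finset

/-- Gram matrix of the quaternary form. -/
def gram (b c r : ℤ) : Matrix (Fin 4) (Fin 4) ℤ :=
  !![2, 1, 0, r; 1, 2 * b, -r, 0; 0, -r, 2 * c, c; r, 0, c, 2 * b * c]

/-- `p` times the inverse of the Gram matrix. -/
def gramDual (b c r : ℤ) : Matrix (Fin 4) (Fin 4) ℤ :=
  !![2 * b * c, -c, 0, -r; -c, 2 * c, r, 0; 0, r, 2 * b, -1; -r, 0, -1, 2]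

/-- The quaternary quadratic form. -/
def quad (b c r : ℤ) (v : Fin 4 → ℤ) : ℤ :=
  v 0 ^ 2 + v 0 * v 1 + b * v 1 ^ 2 + r * (v 0 * v 3 - v 1 * v 2)
    + c * (v 2 ^ 2 + v 2 * v 3 + b * v 3 ^ 2)

/-- The dual quaternary quadratic form (`p` times the form of the dual lattice). -/
def quadDual (b c r : ℤ) (v : Fin 4 → ℤ) : ℤ :=
  b * c * v 0 ^ 2 - c * v 0 * v 1 + c * v 1 ^ 2 - r * (v 0 * v 3 - v 1 * v 2)
    + b * v 2 ^ 2 - v 2 * v 3 + v 3 ^ 2

lemma gram_isSymm (b c r : ℤ) : (gram b c r).IsSymm := by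
  ext i j
  fin_cases i <;> fin_cases j <;> simp [gram]

lemma gramDual_isSymm (b c r : ℤ) : (gramDual b c r).IsSymm := by
  ext i j
  fin_cases i <;> fin_cases j <;> simp [gramDual]

lemma gram_even_diag (b c r : ℤ) (i : Fin 4) : Even (gram b c r i i) := by
  fin_cases i <;> simp [gram]

lemma gramDual_even_diag (b c r : ℤ) (i : Fin 4) : Even (gramDual b c r i i) := by
  fin_cases i <;> simp [gramDual]

lemma gram_mul_gramDual (b c r : ℤ) :
    gram b c r * gramDual b c r = ((4 * b - 1) * c - r ^ 2) • (1 : Matrix (Fin 4) (Fin 4) ℤ) := by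
  ext i j
  fin_cases i <;> fin_cases j <;>
    simp [gram, gramDual, Matrix.mul_apply, Fin.sum_univ_four] <;> ring

lemma gramDual_mul_gram (b c r : ℤ) :
    gramDual b c r * gram b c r = ((4 * b - 1) * c - r ^ 2) • (1 : Matrix (Fin 4) (Fin 4) ℤ) := by
  ext i j
  fin_cases i <;> fin_cases j <;>
    simp [gram, gramDual, Matrix.mul_apply, Fin.sum_univ_four] <;> ring

lemma dotProduct_gram_mulVec (b c r : ℤ) (v : Fin 4 → ℤ) :
    v ⬝ᵥ (gram b c r *ᵥ v) = 2 * quad b c r v := by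
  simp [gram, quad, dotProduct, Matrix.mulVec, Fin.sum_univ_four]
  ring

lemma dotProduct_gramDual_mulVec (b c r : ℤ) (v : Fin 4 → ℤ) :
    v ⬝ᵥ (gramDual b c r *ᵥ v) = 2 * quadDual b c r v := by
  simp [gramDual, quadDual, dotProduct, Matrix.mulVec, Fin.sum_univ_four]
  ring

lemma det_gram (b c r : ℤ) : (gram b c r).det = ((4 * b - 1) * c - r ^ 2) ^ 2 := by
  simp [gram, Matrix.det_succ_row_zero, Fin.sum_univ_succ, Fin.succAbove]
  ring

/-- Sum-of-squares certificate for positivity. -/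
lemma four_mul_quad (b c r : ℤ) (v : Fin 4 → ℤ) :
    4 * (4 * b - 1) * quad b c r v =
      (4 * b - 1) * (2 * v 0 + v 1 + r * v 3) ^ 2 + ((4 * b - 1) * v 1 - r * (2 * v 2 + v 3)) ^ 2
        + ((4 * b - 1) * c - r ^ 2) * (2 * v 2 + v 3) ^ 2
        + ((4 * b - 1) * c - r ^ 2) * (4 * b - 1) * v 3 ^ 2 := by
  simp only [quad]
  ring

/-! ### Positive definiteness -/

/-- The real quadratic form attached to `gram`. -/
lemma real_dotProduct_gram (b c r : ℤ) (x : Fin 4 → ℝ) :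
    x ⬝ᵥ ((gram b c r).map (Int.cast : ℤ → ℝ) *ᵥ x) =
      2 * (x 0 ^ 2 + x 0 * x 1 + b * x 1 ^ 2 + r * (x 0 * x 3 - x 1 * x 2)
        + c * (x 2 ^ 2 + x 2 * x 3 + b * x 3 ^ 2)) := by
  simp [gram, dotProduct, Matrix.mulVec, Fin.sum_univ_four]
  ring

lemma real_sos (b c r : ℤ) (x : Fin 4 → ℝ) :
    2 * (4 * (b : ℝ) - 1) * (x ⬝ᵥ ((gram b c r).map (Int.cast : ℤ → ℝ) *ᵥ x)) =
      (4 * (b : ℝ) - 1) * (2 * x 0 + x 1 + r * x 3) ^ 2
        + ((4 * (b : ℝ) - 1) * x 1 - r * (2 * x 2 + x 3)) ^ 2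
        + ((4 * (b : ℝ) - 1) * c - (r : ℝ) ^ 2) * (2 * x 2 + x 3) ^ 2
        + ((4 * (b : ℝ) - 1) * c - (r : ℝ) ^ 2) * (4 * (b : ℝ) - 1) * x 3 ^ 2 := by
  rw [real_dotProduct_gram]
  ring

/-- The Gram matrix is positive definite when `b ≥ 1` and `p = (4b-1)c - r² > 0`. -/
theorem gram_posDef (b c r : ℤ) (hb : 1 ≤ b) (hp : 0 < (4 * b - 1) * c - r ^ 2) :
    ((gram b c r).map (Int.cast : ℤ → ℝ)).PosDef := by
  refine Matrix.PosDef.of_dotProduct_mulVec_pos ?_ ?_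
  · rw [Matrix.IsHermitian, Matrix.conjTranspose_eq_transpose_of_trivial]
    rw [← Matrix.transpose_map, (gram_isSymm b c r).eq]
  · intro x hx
    rw [star_trivial]
    have hq : (0 : ℝ) < 4 * (b : ℝ) - 1 := by
      have : (1 : ℝ) ≤ b := by exact_mod_cast hb
      linarith
    have hpR : (0 : ℝ) < (4 * (b : ℝ) - 1) * c - (r : ℝ) ^ 2 := by exact_mod_cast hp
    have hsos := real_sos b c r x
    by_contra hneg
    push Not at hneg
    have h1 : 2 * (4 * (b : ℝ) - 1) * (x ⬝ᵥ ((gram b c r).map (Int.cast : ℤ → ℝ) *ᵥ x)) ≤ 0 :=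
      mul_nonpos_of_nonneg_of_nonpos (by linarith) hneg
    rw [hsos] at h1
    have t1 : 0 ≤ (4 * (b : ℝ) - 1) * (2 * x 0 + x 1 + r * x 3) ^ 2 :=
      mul_nonneg hq.le (sq_nonneg _)
    have t2 : 0 ≤ ((4 * (b : ℝ) - 1) * x 1 - r * (2 * x 2 + x 3)) ^ 2 := sq_nonneg _
    have t3 : 0 ≤ ((4 * (b : ℝ) - 1) * c - (r : ℝ) ^ 2) * (2 * x 2 + x 3) ^ 2 :=
      mul_nonneg hpR.le (sq_nonneg _)
    have t4 : 0 ≤ ((4 * (b : ℝ) - 1) * c - (r : ℝ) ^ 2) * (4 * (b : ℝ) - 1) * x 3 ^ 2 :=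
      mul_nonneg (mul_nonneg hpR.le hq.le) (sq_nonneg _)
    have e4 : ((4 * (b : ℝ) - 1) * c - (r : ℝ) ^ 2) * (4 * (b : ℝ) - 1) * x 3 ^ 2 = 0 := by linarith
    have e3 : ((4 * (b : ℝ) - 1) * c - (r : ℝ) ^ 2) * (2 * x 2 + x 3) ^ 2 = 0 := by linarith
    have e2 : ((4 * (b : ℝ) - 1) * x 1 - r * (2 * x 2 + x 3)) ^ 2 = 0 := by linarith
    have e1 : (4 * (b : ℝ) - 1) * (2 * x 0 + x 1 + r * x 3) ^ 2 = 0 := by linarith
    have x3 : x 3 = 0 := by
      have := mul_eq_zero.mp e4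
      rcases this with h | h
      · exact absurd h (mul_pos hpR hq).ne'
      · exact pow_eq_zero_iff (two_ne_zero) |>.mp h
    have x2 : x 2 = 0 := by
      have := mul_eq_zero.mp e3
      rcases this with h | h
      · exact absurd h hpR.ne'
      · have := pow_eq_zero_iff (two_ne_zero) |>.mp h
        linarith
    have x1 : x 1 = 0 := by
      have := pow_eq_zero_iff (two_ne_zero) |>.mp e2
      rw [x2, x3] at this
      have h' : (4 * (b : ℝ) - 1) * x 1 = 0 := by linarith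
      rcases mul_eq_zero.mp h' with h | h
      · exact absurd h hq.ne'
      · exact h
    have x0 : x 0 = 0 := by
      rcases mul_eq_zero.mp e1 with h | h
      · exact absurd h hq.ne'
      · have := pow_eq_zero_iff (two_ne_zero) |>.mp h
        rw [x1, x3] at this
        linarith
    apply hx
    funext i
    fin_cases i <;> simp [x0, x1, x2, x3]

/-- `quad` is positive on nonzero integer vectors. -/
theorem quad_pos (b c r : ℤ) (hb : 1 ≤ b) (hp : 0 < (4 * b - 1) * c - r ^ 2)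
    (v : Fin 4 → ℤ) (hv : v ≠ 0) : 0 < quad b c r v := by
  have hq : 0 < 4 * b - 1 := by linarith
  have h := four_mul_quad b c r v
  by_contra hneg
  push Not at hneg
  have h1 : 4 * (4 * b - 1) * quad b c r v ≤ 0 :=
    mul_nonpos_of_nonneg_of_nonpos (by linarith) hneg
  rw [h] at h1
  have t1 : 0 ≤ (4 * b - 1) * (2 * v 0 + v 1 + r * v 3) ^ 2 := mul_nonneg hq.le (sq_nonneg _)
  have t2 : 0 ≤ ((4 * b - 1) * v 1 - r * (2 * v 2 + v 3)) ^ 2 := sq_nonneg _
  have t3 : 0 ≤ ((4 * b - 1) * c - r ^ 2) * (2 * v 2 + v 3) ^ 2 := mul_nonneg hp.le (sq_nonneg _)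
  have t4 : 0 ≤ ((4 * b - 1) * c - r ^ 2) * (4 * b - 1) * v 3 ^ 2 :=
    mul_nonneg (mul_nonneg hp.le hq.le) (sq_nonneg _)
  have e4 : ((4 * b - 1) * c - r ^ 2) * (4 * b - 1) * v 3 ^ 2 = 0 := by linarith
  have e3 : ((4 * b - 1) * c - r ^ 2) * (2 * v 2 + v 3) ^ 2 = 0 := by linarith
  have e2 : ((4 * b - 1) * v 1 - r * (2 * v 2 + v 3)) ^ 2 = 0 := by linarith
  have e1 : (4 * b - 1) * (2 * v 0 + v 1 + r * v 3) ^ 2 = 0 := by linarith
  have x3 : v 3 = 0 := by
    rcases mul_eq_zero.mp e4 with h | h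
    · exact absurd h (mul_pos hp hq).ne'
    · exact pow_eq_zero_iff (two_ne_zero) |>.mp h
  have x2 : v 2 = 0 := by
    rcases mul_eq_zero.mp e3 with h | h
    · exact absurd h hp.ne'
    · have := pow_eq_zero_iff (two_ne_zero) |>.mp h
      omega
  have x1 : v 1 = 0 := by
    have := pow_eq_zero_iff (two_ne_zero) |>.mp e2
    rw [x2, x3] at this
    have h' : (4 * b - 1) * v 1 = 0 := by linarith
    rcases mul_eq_zero.mp h' with h | h
    · exact absurd h hq.ne'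
    · exact h
  have x0 : v 0 = 0 := by
    rcases mul_eq_zero.mp e1 with h | h
    · exact absurd h hq.ne'
    · have := pow_eq_zero_iff (two_ne_zero) |>.mp h
      rw [x1, x3] at this
      omega
  apply hv
  funext i
  fin_cases i <;> simp [x0, x1, x2, x3]

/-! ### Gauss sums of the dual form modulo `p` -/

section GaussSum

open ZMod GaussBinary

variable {p : ℕ} [Fact p.Prime]

/-- Reduction mod `p` of the dual form `quadDual`. -/
def quadDualMod (p : ℕ) (b c r : ℤ) (η : Fin 4 → ZMod p) : ZMod p :=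
  b * c * η 0 ^ 2 - c * η 0 * η 1 + c * η 1 ^ 2 - r * (η 0 * η 3 - η 1 * η 2)
    + b * η 2 ^ 2 - η 2 * η 3 + η 3 ^ 2

lemma quadDualMod_intCast (b c r : ℤ) (v : Fin 4 → ℤ) :
    quadDualMod p b c r (fun i => (v i : ZMod p)) = ((quadDual b c r v : ℤ) : ZMod p) := by
  simp only [quadDualMod, quadDual]
  push_cast
  ring

/-- A shear of `(ZMod p)⁴`, written as an equivalence with `(ZMod p)² × (ZMod p)²`. -/
def shear (α₁ α₂ β₁ β₂ : ZMod p) :
    (Fin 4 → ZMod p) ≃ (ZMod p × ZMod p) × (ZMod p × ZMod p) where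
  toFun η := ((η 0, η 1), (η 2 + α₁ * η 0 + α₂ * η 1, η 3 + β₁ * η 0 + β₂ * η 1))
  invFun x := ![x.1.1, x.1.2, x.2.1 - α₁ * x.1.1 - α₂ * x.1.2, x.2.2 - β₁ * x.1.1 - β₂ * x.1.2]
  left_inv η := by
    funext i
    fin_cases i <;> simp <;> ring
  right_inv x := by
    rcases x with ⟨⟨X, Y⟩, ⟨u, w⟩⟩
    refine Prod.ext (Prod.ext rfl rfl) (Prod.ext ?_ ?_) <;> simp <;> ring

/-- Polynomial identity behind `quadDualMod_shear_symm`. -/
lemma key_identity {K : Type*} [CommRing K] (B C R qi X Y u w : K)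
    (hh : (4 * B - 1) * qi = 1) (hC : C = R ^ 2 * qi) :
    B * C * X ^ 2 - C * X * Y + C * Y ^ 2
        - R * (X * (w - (-2 * B * R * qi) * X - (R * qi) * Y)
          - Y * (u - (-R * qi) * X - (2 * R * qi) * Y))
        + B * (u - (-R * qi) * X - (2 * R * qi) * Y) ^ 2
        - (u - (-R * qi) * X - (2 * R * qi) * Y) * (w - (-2 * B * R * qi) * X - (R * qi) * Y)
        + (w - (-2 * B * R * qi) * X - (R * qi) * Y) ^ 2
      = B * u ^ 2 - 1 * u * w + w ^ 2 := by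
  subst hC
  linear_combination
    (R * X * w - R * Y * u - R ^ 2 * X * Y * qi + R ^ 2 * X ^ 2 * B * qi + R ^ 2 * Y ^ 2 * qi) * hh

/-- Key identity: in the sheared coordinates the dual form only depends on the last two
coordinates, where it is the binary form `b u² - u w + w²` of discriminant `1 - 4b`. -/
lemma quadDualMod_shear_symm (b c r : ℤ) (hq : ((4 * b - 1 : ℤ) : ZMod p) ≠ 0)
    (hc : ((c : ℤ) : ZMod p) * ((4 * b - 1 : ℤ) : ZMod p) = ((r : ℤ) : ZMod p) ^ 2)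
    (X Y u w : ZMod p) :
    quadDualMod p b c r
      ((shear (-(r : ZMod p) * ((4 * b - 1 : ℤ) : ZMod p)⁻¹)
        (2 * (r : ZMod p) * ((4 * b - 1 : ℤ) : ZMod p)⁻¹)
        (-2 * (b : ZMod p) * (r : ZMod p) * ((4 * b - 1 : ℤ) : ZMod p)⁻¹)
        ((r : ZMod p) * ((4 * b - 1 : ℤ) : ZMod p)⁻¹)).symm ((X, Y), (u, w)))
      = (b : ZMod p) * u ^ 2 - 1 * u * w + w ^ 2 := by
  set qi : ZMod p := ((4 * b - 1 : ℤ) : ZMod p)⁻¹ with hqi
  have hh : (4 * (b : ZMod p) - 1) * qi = 1 := by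
    have : ((4 * b - 1 : ℤ) : ZMod p) = 4 * (b : ZMod p) - 1 := by push_cast; ring
    rw [← this, hqi]
    exact mul_inv_cancel₀ hq
  have hC : ((c : ℤ) : ZMod p) = ((r : ℤ) : ZMod p) ^ 2 * qi := by
    rw [hqi, ← div_eq_mul_inv]
    exact eq_div_of_mul_eq hq hc
  have key := key_identity (b : ZMod p) (c : ZMod p) (r : ZMod p) qi X Y u w hh hC
  rw [← key]
  simp only [quadDualMod, shear, Equiv.coe_fn_symm_mk, Matrix.cons_val_zero, Matrix.cons_val_one,
    Matrix.cons_val]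

/-- The Gauss sums of the dual form over `(ZMod p)⁴` are `-p³` as soon as `1 - 4b` (the
discriminant of the underlying quadratic order) is a non-residue mod `p`. -/
theorem sum_quadDualMod (hp2 : p ≠ 2) (b c r : ℤ)
    (hp : (((4 * b - 1) * c - r ^ 2 : ℤ) : ZMod p) = 0)
    (hchar : quadraticChar (ZMod p) ((1 - 4 * b : ℤ) : ZMod p) = -1)
    (j : ZMod p) (hj : j ≠ 0) :
    ∑ η : Fin 4 → ZMod p, (stdAddChar (j * quadDualMod p b c r η) : ℂ) = -(p : ℂ) ^ 3 := by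
  have hq : ((4 * b - 1 : ℤ) : ZMod p) ≠ 0 := by
    intro h
    have h0 : ((1 - 4 * b : ℤ) : ZMod p) = 0 := by
      have : ((1 - 4 * b : ℤ) : ZMod p) = -((4 * b - 1 : ℤ) : ZMod p) := by push_cast; ring
      rw [this, h, neg_zero]
    rw [h0, MulChar.map_zero] at hchar
    norm_num at hchar
  have hc : ((c : ℤ) : ZMod p) * ((4 * b - 1 : ℤ) : ZMod p) = ((r : ℤ) : ZMod p) ^ 2 := by
    have : (((4 * b - 1) * c - r ^ 2 : ℤ) : ZMod p)
        = ((4 * b - 1 : ℤ) : ZMod p) * ((c : ℤ) : ZMod p) - ((r : ℤ) : ZMod p) ^ 2 := by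
      push_cast; ring
    rw [this] at hp
    linear_combination hp
  set e := shear (p := p) (-(r : ZMod p) * ((4 * b - 1 : ℤ) : ZMod p)⁻¹)
        (2 * (r : ZMod p) * ((4 * b - 1 : ℤ) : ZMod p)⁻¹)
        (-2 * (b : ZMod p) * (r : ZMod p) * ((4 * b - 1 : ℤ) : ZMod p)⁻¹)
        ((r : ZMod p) * ((4 * b - 1 : ℤ) : ZMod p)⁻¹) with he
  rw [← Equiv.sum_comp e.symm]
  rw [Fintype.sum_prod_type]
  have hinner : ∀ XY : ZMod p × ZMod p,
      ∑ y : ZMod p × ZMod p, (stdAddChar (j * quadDualMod p b c r (e.symm (XY, y))) : ℂ)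
        = -(p : ℂ) := by
    rintro ⟨X, Y⟩
    rw [Fintype.sum_prod_type]
    have := sum_binary (p := p) hp2 (b : ZMod p) 1 j hj (by
      have : ((1 : ZMod p) ^ 2 - 4 * (b : ZMod p)) = ((1 - 4 * b : ℤ) : ZMod p) := by
        push_cast; ring
      rw [this]; exact hchar)
    rw [← this]
    refine Finset.sum_congr rfl fun u _ => Finset.sum_congr rfl fun w _ => ?_
    rw [he, quadDualMod_shear_symm b c r hq hc X Y u w]
  simp_rw [hinner]
  rw [Finset.sum_const, Finset.card_univ, Fintype.card_prod, ZMod.card, nsmul_eq_mul]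
  push_cast
  ring

end GaussSum

end Fermat.Agent.S16.Lattice
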