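/-
S16 lower bound, arithmetic part (helper37): existence of the parameters `(b, c, r)` of the
uniform quaternary lattice for every odd prime `p`:
`(4b-1) c - r² = p` with `1 - 4b` a quadratic non-residue mod `p`.

Proof: Dirichlet gives a prime `ℓ ≡ 3 mod 4` with `-ℓ` a non-residue mod `p`; quadratic
reciprocity then shows `-p` is a square mod `ℓ`, i.e. `ℓ ∣ r² + p`; take `4b - 1 = ℓ`.
-/
import Mathlib
import Fermat.Agent.S16.Lattice

set_option autoImplicit false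

namespace Fermat.Agent.S16.Lattice

open ZMod

/-- A prime `ℓ ≡ 3 mod 4`, `ℓ ≠ p`, such that `-ℓ` is a non-residue mod `p`. -/
lemma exists_aux_prime (p : ℕ) [Fact p.Prime] (hp2 : p ≠ 2) :
    ∃ ℓ : ℕ, ℓ.Prime ∧ ℓ % 4 = 3 ∧ ℓ ≠ p ∧
      quadraticChar (ZMod p) (-(ℓ : ZMod p)) = -1 := by
  have hp : p.Prime := Fact.out
  obtain ⟨g, hg⟩ := quadraticChar_exists_neg_one' (F := ZMod p) (GaussBinary.ringChar_ne_two hp2)
  have hcop : Nat.Coprime 4 p := by
    have h2 : Nat.Coprime 2 p := (Nat.coprime_primes Nat.prime_two hp).mpr (Ne.symm hp2)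
    have : (4 : ℕ) = 2 ^ 2 := by norm_num
    rw [this]
    exact Nat.Coprime.pow_left 2 h2
  have : NeZero (4 * p) := ⟨Nat.mul_ne_zero (by norm_num) hp.ne_zero⟩
  set e := ZMod.chineseRemainder hcop with he
  set a : ZMod (4 * p) := e.symm ((3 : ZMod 4), -(g : ZMod p)) with ha
  have hunit : IsUnit a := by
    rw [ha]
    apply (MulEquiv.isUnit_map e.symm.toMulEquiv).mpr
    rw [Prod.isUnit_iff]
    exact ⟨(show IsUnit (3 : ZMod 4) by decide), g.isUnit.neg⟩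
  obtain ⟨ℓ, hℓp, hℓ, hℓa⟩ := Nat.forall_exists_prime_gt_and_eq_mod hunit p
  have h1 : e (ℓ : ZMod (4 * p)) = ((3 : ZMod 4), -(g : ZMod p)) := by
    rw [hℓa, ha, RingEquiv.apply_symm_apply]
  rw [map_natCast] at h1
  have h3 : (ℓ : ZMod 4) = 3 := by
    have := congrArg Prod.fst h1
    simpa using this
  have hg' : (ℓ : ZMod p) = -(g : ZMod p) := by
    have := congrArg Prod.snd h1
    simpa using this
  refine ⟨ℓ, hℓ, ?_, hℓp.ne', ?_⟩
  · have h3' : (ℓ : ZMod 4) = ((3 : ℕ) : ZMod 4) := by rw [h3]; rfl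
    exact (ZMod.natCast_eq_natCast_iff' ℓ 3 4).mp h3'
  · rw [hg', neg_neg]
    exact hg

/-- For every odd prime `p` there are integers `b, c ≥ 1` and `r` with `(4b-1) c - r² = p`
such that `1 - 4b` is a quadratic non-residue modulo `p`. -/
theorem exists_params (p : ℕ) [Fact p.Prime] (hp2 : p ≠ 2) :
    ∃ b c r : ℤ, 1 ≤ b ∧ 1 ≤ c ∧ (4 * b - 1) * c - r ^ 2 = p ∧
      quadraticChar (ZMod p) ((1 - 4 * b : ℤ) : ZMod p) = -1 := by
  have hp : p.Prime := Fact.out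
  obtain ⟨ℓ, hℓ, hℓ4, hℓp, hchar⟩ := exists_aux_prime p hp2
  have : Fact ℓ.Prime := ⟨hℓ⟩
  have hℓ2 : ℓ ≠ 2 := by
    rintro rfl
    norm_num at hℓ4
  -- Legendre symbol of `-ℓ` mod `p`
  have hL1 : legendreSym p (-(ℓ : ℤ)) = -1 := by
    rw [legendreSym]
    have : ((-(ℓ : ℤ) : ℤ) : ZMod p) = -(ℓ : ZMod p) := by push_cast; ring
    rw [this]
    exact hchar
  -- `p` is not a square mod `ℓ`
  have hpodd : p % 2 = 1 := hp.eq_two_or_odd.resolve_left hp2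
  have hL2 : legendreSym ℓ p = -1 := by
    have hneg := legendreSym.at_neg hp2 (ℓ : ℤ)
    rw [hL1] at hneg
    have hp4 : p % 4 = 1 ∨ p % 4 = 3 := by omega
    rcases hp4 with h | h
    · rw [χ₄_nat_one_mod_four h, one_mul] at hneg
      rw [legendreSym.quadratic_reciprocity_one_mod_four h hℓ2]
      exact hneg.symm
    · rw [χ₄_nat_three_mod_four h] at hneg
      rw [legendreSym.quadratic_reciprocity_three_mod_four h hℓ4]
      linarith
  -- `-p` is a square mod `ℓ`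
  have hL3 : legendreSym ℓ (-(p : ℤ)) = 1 := by
    rw [legendreSym.at_neg hℓ2, χ₄_nat_three_mod_four hℓ4, hL2]
    norm_num
  have hpℓ : ((-(p : ℤ) : ℤ) : ZMod ℓ) ≠ 0 := by
    intro h
    rw [ZMod.intCast_zmod_eq_zero_iff_dvd, dvd_neg, Int.natCast_dvd_natCast] at h
    exact hℓp ((Nat.prime_dvd_prime_iff_eq hℓ hp).mp h)
  obtain ⟨s, hs⟩ := (legendreSym.eq_one_iff ℓ hpℓ).mp hL3
  -- lift `s` to a natural number `r`
  set r : ℕ := s.val with hr
  have hsr : ((r : ℕ) : ZMod ℓ) = s := by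
    rw [hr]; exact ZMod.natCast_zmod_val s
  have hdvd : (ℓ : ℤ) ∣ (r : ℤ) ^ 2 + p := by
    rw [← ZMod.intCast_zmod_eq_zero_iff_dvd]
    push_cast
    rw [hsr]
    have : ((-(p : ℤ) : ℤ) : ZMod ℓ) = -(p : ZMod ℓ) := by push_cast; ring
    rw [this] at hs
    rw [pow_two, ← hs]
    ring
  obtain ⟨c, hc⟩ := hdvd
  have hℓpos : (0 : ℤ) < ℓ := by exact_mod_cast hℓ.pos
  have hcpos : 0 < c := by
    have hpos : (0 : ℤ) < (r : ℤ) ^ 2 + p := by
      have : (0 : ℤ) < p := by exact_mod_cast hp.pos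
      positivity
    rw [hc] at hpos
    exact (pos_iff_pos_of_mul_pos hpos).mp hℓpos
  -- `b = (ℓ + 1) / 4`
  obtain ⟨b, hb⟩ : ∃ b : ℤ, 4 * b - 1 = ℓ := by
    refine ⟨((ℓ + 1) / 4 : ℕ), ?_⟩
    have : 4 * ((ℓ + 1) / 4) = ℓ + 1 := by omega
    have h' : (4 : ℤ) * (((ℓ + 1) / 4 : ℕ) : ℤ) = (ℓ : ℤ) + 1 := by exact_mod_cast this
    linarith
  refine ⟨b, c, r, ?_, hcpos, ?_, ?_⟩
  · have : (3 : ℤ) ≤ ℓ := by
      have : 3 ≤ ℓ := by omega
      exact_mod_cast this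
    linarith
  · rw [hb, ← hc]; ring
  · have : (1 - 4 * b : ℤ) = -(ℓ : ℤ) := by linarith
    rw [this]
    have h2 : ((-(ℓ : ℤ) : ℤ) : ZMod p) = -(ℓ : ZMod p) := by push_cast; ring
    rw [h2]
    exact hchar

end Fermat.Agent.S16.Lattice
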