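import Mathlib
import Fermat.Agent.S16.SL2Pres
import Fermat.Agent.S21.GroupBound
import Fermat.Agent.S21.Parabolic
import Fermat.Agent.Lib.Gamma0Orbits

set_option autoImplicit false

/-!
# Lifting homomorphisms `Γ₀(p) → ℤ/n` to parabolic homomorphisms `Γ₀(p) → ℤ`

Shapiro's lemma on `X = SL(2, ℤ) ⧸ Γ` plus the presentation `PSL(2, ℤ) = C₂ * C₃`:
a cocycle `c : SL(2, ℤ) → (X → ℤ)` is freely determined by `c S` and `c (S * T)` subject to the
two norm relations.  Consequently a homomorphism `χ : Γ → ℤ/n` killing the torsion elements lifts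
to a homomorphism `Γ → ℤ`; for `Γ = Γ₀(p)` the lift can be made parabolic when `χ T = 0`.
-/

open scoped MatrixGroups
open ModularGroup

namespace Fermat.Agent.S16.ShimuraLift

open Fermat.Agent.S21.GroupBound

noncomputable section

theorem S_sq : (S ^ 2 : SL(2, ℤ)) = -1 := by
  apply Subtype.ext
  simp only [pow_two, Matrix.SpecialLinearGroup.coe_mul, coe_S, Matrix.SpecialLinearGroup.coe_neg]
  decide

theorem ST_cube : ((S * T) ^ 3 : SL(2, ℤ)) = -1 := by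
  apply Subtype.ext
  simp only [pow_succ, pow_zero, one_mul, Matrix.SpecialLinearGroup.coe_mul, coe_S, coe_T,
    Matrix.SpecialLinearGroup.coe_neg]
  decide

/-- The trace condition singling out `±1`, parabolic and elliptic elements. -/
def IsSpecial (g : SL(2, ℤ)) : Prop :=
  (g : Matrix (Fin 2) (Fin 2) ℤ).trace ^ 2 = 4 ∨ (g : Matrix (Fin 2) (Fin 2) ℤ).trace ^ 2 = 1 ∨
    (g : Matrix (Fin 2) (Fin 2) ℤ).trace = 0

theorem isSpecial_S : IsSpecial S := by
  refine Or.inr (Or.inr ?_)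
  rw [coe_S]; decide

theorem isSpecial_neg_one : IsSpecial (-1 : SL(2, ℤ)) := by
  refine Or.inl ?_
  rw [Matrix.SpecialLinearGroup.coe_neg, Matrix.SpecialLinearGroup.coe_one]; decide

theorem isSpecial_ST : IsSpecial (S * T) := by
  refine Or.inr (Or.inl ?_)
  rw [Matrix.SpecialLinearGroup.coe_mul, coe_S, coe_T]; decide

theorem isSpecial_T : IsSpecial T := by
  refine Or.inl ?_
  rw [coe_T]; decide

variable (Γ : Subgroup SL(2, ℤ))

/-- The cocycle condition for maps `SL(2, ℤ) → (SL(2, ℤ) ⧸ Γ → A)`. -/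
def IsCoc {A : Type*} [AddCommGroup A] (c : SL(2, ℤ) → (SL(2, ℤ) ⧸ Γ) → A) : Prop :=
  ∀ (g h : SL(2, ℤ)) (x : SL(2, ℤ) ⧸ Γ), c (g * h) x = c g (h • x) + c h x

variable {Γ}

section Basic

variable {A : Type*} [AddCommGroup A] {c : SL(2, ℤ) → (SL(2, ℤ) ⧸ Γ) → A}

theorem IsCoc.one (hc : IsCoc Γ c) (x : SL(2, ℤ) ⧸ Γ) : c 1 x = 0 := by
  have h := hc 1 1 x
  rw [mul_one, one_smul] at h
  have h' : c 1 x + 0 = c 1 x + c 1 x := by rw [add_zero]; exact h
  exact (add_left_cancel h').symm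

theorem IsCoc.inv (hc : IsCoc Γ c) (g : SL(2, ℤ)) (x : SL(2, ℤ) ⧸ Γ) :
    c g⁻¹ x = -c g (g⁻¹ • x) := by
  have h := hc g g⁻¹ x
  rw [mul_inv_cancel, hc.one] at h
  exact eq_neg_of_add_eq_zero_right h.symm

/-- Two cocycles agreeing on `S` and `S * T` agree everywhere. -/
theorem IsCoc.ext {c' : SL(2, ℤ) → (SL(2, ℤ) ⧸ Γ) → A} (hc : IsCoc Γ c) (hc' : IsCoc Γ c')
    (hS : c S = c' S) (hU : c (S * T) = c' (S * T)) (g : SL(2, ℤ)) : c g = c' g := by
  let H : Subgroup SL(2, ℤ) :=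
    { carrier := {g | c g = c' g}
      mul_mem' := by
        intro a b (ha : c a = c' a) (hb : c b = c' b)
        funext x
        rw [hc, hc', ha, hb]
      one_mem' := by
        funext x
        rw [hc.one, hc'.one]
      inv_mem' := by
        intro a (ha : c a = c' a)
        funext x
        rw [hc.inv, hc'.inv, ha] }
  have hSH : S ∈ H := hS
  have hTH : T ∈ H := by
    have h2 : S⁻¹ * (S * T) ∈ H := H.mul_mem (H.inv_mem hSH) hU
    simpa using h2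
  have htop : H = ⊤ := by
    apply top_unique
    rw [← SpecialLinearGroup.SL2Z_generators, Subgroup.closure_le]
    intro a ha
    rcases ha with rfl | rfl
    · exact hSH
    · exact hTH
  have : g ∈ H := by rw [htop]; trivial
  exact this

theorem IsCoc.pow_of_fixed (hc : IsCoc Γ c) {h : SL(2, ℤ)} {y : SL(2, ℤ) ⧸ Γ} (hy : h • y = y)
    (m : ℕ) : c (h ^ m) y = m • c h y := by
  induction m with
  | zero => simp [hc.one]
  | succ m ih =>
    rw [pow_succ, hc, hy, ih, succ_nsmul]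

theorem IsCoc.zpow_of_fixed (hc : IsCoc Γ c) {h : SL(2, ℤ)} {y : SL(2, ℤ) ⧸ Γ} (hy : h • y = y)
    (m : ℤ) : c (h ^ m) y = m • c h y := by
  have hy' : h⁻¹ • y = y := by rw [inv_smul_eq_iff, hy]
  cases m with
  | ofNat m => simpa using hc.pow_of_fixed hy m
  | negSucc m =>
    rw [zpow_negSucc, ← inv_pow, hc.pow_of_fixed hy', hc.inv, hy', negSucc_zsmul, smul_neg]

end Basic

/-! ### Existence of cocycles with prescribed values on the generators -/

section Extension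

/-- The affine permutation of `X × ℤ` attached to `(v, g)`. -/
def affPerm (v : (SL(2, ℤ) ⧸ Γ) → ℤ) (g : SL(2, ℤ)) : Equiv.Perm ((SL(2, ℤ) ⧸ Γ) × ℤ) where
  toFun q := (g • q.1, q.2 + v q.1)
  invFun q := (g⁻¹ • q.1, q.2 - v (g⁻¹ • q.1))
  left_inv q := by simp
  right_inv q := by simp

theorem affPerm_apply (v : (SL(2, ℤ) ⧸ Γ) → ℤ) (g : SL(2, ℤ)) (q : (SL(2, ℤ) ⧸ Γ) × ℤ) :
    affPerm v g q = (g • q.1, q.2 + v q.1) := rfl

theorem S_smul_S_smul (hΓ : (-1 : SL(2, ℤ)) ∈ Γ) (x : SL(2, ℤ) ⧸ Γ) : S • S • x = x := by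
  rw [← mul_smul, ← pow_two, S_sq, neg_one_smul' Γ hΓ]

theorem U_smul_U_smul_U_smul (hΓ : (-1 : SL(2, ℤ)) ∈ Γ) (x : SL(2, ℤ) ⧸ Γ) :
    (S * T) • (S * T) • (S * T) • x = x := by
  rw [← mul_smul, ← mul_smul, ← pow_two, ← pow_succ, ST_cube, neg_one_smul' Γ hΓ]

/-- **Cocycle extension.**  A cocycle is freely determined by its values on `S` and `S * T`
subject to the two norm relations. -/
theorem exists_cocycle (hΓ : (-1 : SL(2, ℤ)) ∈ Γ) (vS vU : (SL(2, ℤ) ⧸ Γ) → ℤ)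
    (hS : ∀ x, vS x + vS (S • x) = 0)
    (hU : ∀ x, vU x + vU ((S * T) • x) + vU ((S * T) • (S * T) • x) = 0) :
    ∃ c : SL(2, ℤ) → (SL(2, ℤ) ⧸ Γ) → ℤ, IsCoc Γ c ∧ c S = vS ∧ c (S * T) = vU := by
  have hs : affPerm vS S ^ 2 = 1 := by
    ext q : 1
    rw [pow_two, Equiv.Perm.mul_apply, affPerm_apply, affPerm_apply, Equiv.Perm.one_apply]
    refine Prod.ext (S_smul_S_smul hΓ _) ?_
    show q.2 + vS q.1 + vS (S • q.1) = q.2
    linarith [hS q.1]
  have hu : affPerm vU (S * T) ^ 3 = 1 := by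
    ext q : 1
    rw [pow_succ, pow_two, Equiv.Perm.mul_apply, Equiv.Perm.mul_apply, affPerm_apply,
      affPerm_apply, affPerm_apply, Equiv.Perm.one_apply]
    refine Prod.ext (U_smul_U_smul_U_smul hΓ _) ?_
    show q.2 + vU q.1 + vU ((S * T) • q.1) + vU ((S * T) • (S * T) • q.1) = q.2
    linarith [hU q.1]
  obtain ⟨Θ, hΘS, hΘU⟩ := Fermat.Agent.S16.SL2Pres.exists_hom _ _ hs hu
  -- every `Θ g` is affine over `g`
  let H : Subgroup SL(2, ℤ) :=
    { carrier := {g | ∃ v : (SL(2, ℤ) ⧸ Γ) → ℤ, ∀ q, Θ g q = (g • q.1, q.2 + v q.1)}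
      mul_mem' := by
        rintro a b ⟨v, hv⟩ ⟨w, hw⟩
        refine ⟨fun x => w x + v (b • x), fun q => ?_⟩
        rw [map_mul, Equiv.Perm.mul_apply, hw, hv]
        exact Prod.ext (mul_smul _ _ _).symm (add_assoc _ _ _)
      one_mem' := ⟨0, fun q => by simp⟩
      inv_mem' := by
        rintro a ⟨v, hv⟩
        refine ⟨fun x => -v (a⁻¹ • x), fun q => ?_⟩
        rw [map_inv, Equiv.Perm.inv_def, Equiv.symm_apply_eq, hv]
        refine Prod.ext (by simp) ?_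
        show q.2 = q.2 + -v (a⁻¹ • q.1) + v (a⁻¹ • q.1)
        ring }
  have hSH : S ∈ H := ⟨vS, fun q => by rw [hΘS, affPerm_apply]⟩
  have hUH : S * T ∈ H := ⟨vU, fun q => by rw [hΘU, affPerm_apply]⟩
  have hTH : T ∈ H := by
    have h2 : S⁻¹ * (S * T) ∈ H := H.mul_mem (H.inv_mem hSH) hUH
    simpa using h2
  have htop : H = ⊤ := by
    apply top_unique
    rw [← SpecialLinearGroup.SL2Z_generators, Subgroup.closure_le]
    intro a ha
    rcases ha with rfl | rfl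
    · exact hSH
    · exact hTH
  have key : ∀ g : SL(2, ℤ), ∀ q, Θ g q = (g • q.1, q.2 + (Θ g (q.1, 0)).2) := by
    intro g q
    have hg : g ∈ H := by rw [htop]; trivial
    obtain ⟨v, hv⟩ := hg
    rw [hv q, hv (q.1, 0)]
    simp
  refine ⟨fun g x => (Θ g (x, 0)).2, ?_, ?_, ?_⟩
  · intro g h x
    show (Θ (g * h) (x, 0)).2 = (Θ g (h • x, 0)).2 + (Θ h (x, 0)).2
    rw [map_mul, Equiv.Perm.mul_apply, key h (x, 0), key g (h • x, _)]
    show (0 : ℤ) + (Θ h (x, 0)).2 + (Θ g (h • x, 0)).2 = _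
    ring
  · funext x
    show (Θ S (x, 0)).2 = vS x
    rw [hΘS, affPerm_apply]
    simp
  · funext x
    show (Θ (S * T) (x, 0)).2 = vU x
    rw [hΘU, affPerm_apply]
    simp

end Extension

/-! ### Shapiro: homomorphisms of `Γ` versus cocycles -/

section Shapiro

variable {A : Type*} [AddCommGroup A]

/-- The Shapiro cocycle of a homomorphism `χ : Γ → A`. -/
def shap (χ : Additive Γ →+ A) (g : SL(2, ℤ)) (x : SL(2, ℤ) ⧸ Γ) : A :=
  χ (Additive.ofMul (delta Γ g x))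

theorem isCoc_shap (χ : Additive Γ →+ A) : IsCoc Γ (shap χ) := by
  intro g h x
  simp [shap, delta_mul, ofMul_mul]

theorem shap_x0_of_mem (χ : Additive Γ →+ A) (γ : Γ) :
    shap χ (γ : SL(2, ℤ)) (x0 Γ) = χ (Additive.ofMul γ) := by
  have hd : delta Γ (γ : SL(2, ℤ)) (x0 Γ)
      = (⟨(x0 Γ).out, out_x0_mem Γ⟩ : Γ)⁻¹ * γ * ⟨(x0 Γ).out, out_x0_mem Γ⟩ := by
    apply Subtype.ext
    simp [delta, smul_x0_of_mem Γ γ.2]
  simp [shap, hd, ofMul_mul]

/-- If `g` fixes `x` then `delta g x` is a conjugate of `g`. -/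
theorem coe_delta_of_fixed {g : SL(2, ℤ)} {x : SL(2, ℤ) ⧸ Γ} (hx : g • x = x) :
    ((delta Γ g x : Γ) : SL(2, ℤ)) = x.out⁻¹ * g * x.out := by
  simp [delta, hx]

theorem coe_delta_pow_of_fixed {g : SL(2, ℤ)} {x : SL(2, ℤ) ⧸ Γ} (hx : g • x = x) (m : ℕ) :
    ((delta Γ g x : Γ) : SL(2, ℤ)) ^ m = x.out⁻¹ * g ^ m * x.out := by
  rw [coe_delta_of_fixed hx]
  induction m with
  | zero => simp
  | succ m ih => rw [pow_succ, ih, pow_succ]; group

/-- The homomorphism `Γ → A` attached to a cocycle. -/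
def homOfCoc (c : SL(2, ℤ) → (SL(2, ℤ) ⧸ Γ) → A) (hc : IsCoc Γ c) : Additive Γ →+ A where
  toFun γ := c ((Additive.toMul γ : Γ) : SL(2, ℤ)) (x0 Γ)
  map_zero' := hc.one _
  map_add' a b := by
    show c (((Additive.toMul a * Additive.toMul b : Γ)) : SL(2, ℤ)) (x0 Γ) = _
    rw [Subgroup.coe_mul, hc, smul_x0_of_mem Γ (Additive.toMul b).2]

theorem homOfCoc_apply (c : SL(2, ℤ) → (SL(2, ℤ) ⧸ Γ) → A) (hc : IsCoc Γ c) (γ : Γ) :
    homOfCoc c hc (Additive.ofMul γ) = c (γ : SL(2, ℤ)) (x0 Γ) := rfl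

end Shapiro

/-! ### Lifting the generator values -/

section Lift

variable {n : ℕ} (χ : Additive Γ →+ ZMod n)

theorem shap_eq_zero_of_fixed
    (htors : ∀ γ : Γ, IsSpecial (γ : SL(2, ℤ)) → χ (Additive.ofMul γ) = 0)
    {g : SL(2, ℤ)} (hg : IsSpecial g) {x : SL(2, ℤ) ⧸ Γ} (hx : g • x = x) : shap χ g x = 0 := by
  refine htors _ ?_
  unfold IsSpecial
  rw [coe_delta_of_fixed hx, trace_conj]
  exact hg

theorem shap_S_norm (hΓ : (-1 : SL(2, ℤ)) ∈ Γ)
    (htors : ∀ γ : Γ, IsSpecial (γ : SL(2, ℤ)) → χ (Additive.ofMul γ) = 0)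
    (x : SL(2, ℤ) ⧸ Γ) : shap χ S x + shap χ S (S • x) = 0 := by
  have h := isCoc_shap χ S S x
  have h2 : shap χ (S * S) x = 0 := by
    refine shap_eq_zero_of_fixed χ htors ?_ ?_
    · rw [← pow_two, S_sq]; exact isSpecial_neg_one
    · rw [mul_smul]; exact S_smul_S_smul hΓ x
  rw [h2] at h
  rw [add_comm]; exact h.symm

theorem shap_U_norm (hΓ : (-1 : SL(2, ℤ)) ∈ Γ)
    (htors : ∀ γ : Γ, IsSpecial (γ : SL(2, ℤ)) → χ (Additive.ofMul γ) = 0)
    (x : SL(2, ℤ) ⧸ Γ) :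
    shap χ (S * T) x + shap χ (S * T) ((S * T) • x) + shap χ (S * T) ((S * T) • (S * T) • x) = 0 := by
  have hfix := U_smul_U_smul_U_smul hΓ x
  have hcube := ST_cube
  generalize (S * T : SL(2, ℤ)) = u at hfix hcube ⊢
  have h1 := isCoc_shap χ u (u * u) x
  have h2 := isCoc_shap χ u u x
  have h3 : shap χ (u * (u * u)) x = 0 := by
    refine shap_eq_zero_of_fixed χ htors ?_ ?_
    · have : (u * (u * u) : SL(2, ℤ)) = u ^ 3 := by
        rw [pow_succ, pow_two, mul_assoc]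
      rw [this, hcube]; exact isSpecial_neg_one
    · rw [mul_smul, mul_smul]; exact hfix
  rw [h3, h2, mul_smul] at h1
  rw [h1]; abel

theorem exists_lift (hΓ : (-1 : SL(2, ℤ)) ∈ Γ)
    (htors : ∀ γ : Γ, IsSpecial (γ : SL(2, ℤ)) → χ (Additive.ofMul γ) = 0) :
    ∃ vS vU : (SL(2, ℤ) ⧸ Γ) → ℤ,
      (∀ x, vS x + vS (S • x) = 0) ∧
      (∀ x, vU x + vU ((S * T) • x) + vU ((S * T) • (S * T) • x) = 0) ∧
      (∀ x, ((vS x : ℤ) : ZMod n) = shap χ S x) ∧
      (∀ x, ((vU x : ℤ) : ZMod n) = shap χ (S * T) x) := by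
  classical
  have : Countable (Matrix (Fin 2) (Fin 2) ℤ) := inferInstanceAs (Countable (Fin 2 → Fin 2 → ℤ))
  have : Countable SL(2, ℤ) := Subtype.countable
  have : Countable (SL(2, ℤ) ⧸ Γ) := Function.Surjective.countable QuotientGroup.mk_surjective
  obtain ⟨e, he⟩ := Countable.exists_injective_nat (SL(2, ℤ) ⧸ Γ)
  choose L hL using (ZMod.intCast_surjective : Function.Surjective (Int.cast : ℤ → ZMod n))
  let vS : (SL(2, ℤ) ⧸ Γ) → ℤ := fun x =>
    if e x < e (S • x) then L (shap χ S x)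
    else if e (S • x) < e x then -L (shap χ S (S • x)) else 0
  let vU : (SL(2, ℤ) ⧸ Γ) → ℤ := fun x =>
    if e x < e ((S * T) • x) ∧ e x < e ((S * T) • (S * T) • x) then L (shap χ (S * T) x)
    else if e ((S * T) • (S * T) • x) < e x ∧ e ((S * T) • (S * T) • x) < e ((S * T) • x) then
      L (shap χ (S * T) x)
    else if e ((S * T) • x) < e x ∧ e ((S * T) • x) < e ((S * T) • (S * T) • x) then
      -L (shap χ (S * T) ((S * T) • x)) - L (shap χ (S * T) ((S * T) • (S * T) • x))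
    else 0
  refine ⟨vS, vU, ?_, ?_, ?_, ?_⟩
  · intro x
    simp only [vS, S_smul_S_smul hΓ x]
    split_ifs <;> omega
  · intro x
    simp only [vU, U_smul_U_smul_U_smul hΓ]
    split_ifs <;> omega
  · intro x
    simp only [vS]
    split_ifs with h1 h2
    · exact hL _
    · rw [Int.cast_neg, hL, neg_eq_iff_add_eq_zero, add_comm]
      exact shap_S_norm χ hΓ htors x
    · have hx : S • x = x := (he (le_antisymm (not_lt.mp h2) (not_lt.mp h1))).symm
      rw [Int.cast_zero, shap_eq_zero_of_fixed χ htors isSpecial_S hx]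
  · intro x
    simp only [vU]
    split_ifs with h1 h2 h3
    · exact hL _
    · exact hL _
    · rw [Int.cast_sub, Int.cast_neg, hL, hL]
      have := shap_U_norm χ hΓ htors x
      linear_combination (-1 : ZMod n) * this
    · have hx : (S * T) • x = x := by
        have h4 : e x = e ((S * T) • x) ∨ e ((S * T) • x) = e ((S * T) • (S * T) • x) ∨
            e x = e ((S * T) • (S * T) • x) := by omega
        rcases h4 with h4 | h4 | h4
        · exact (he h4).symm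
        · exact (smul_left_cancel _ (he h4)).symm
        · have h5 := congrArg (fun y => (S * T) • y) (he h4)
          simp only [U_smul_U_smul_U_smul hΓ] at h5
          exact h5
      rw [Int.cast_zero, shap_eq_zero_of_fixed χ htors isSpecial_ST hx]

/-- A homomorphism `χ : Γ → ℤ/n` killing the torsion elements is the reduction of an integral
cocycle satisfying the norm relations. -/
theorem exists_coc_lift (hΓ : (-1 : SL(2, ℤ)) ∈ Γ)
    (htors : ∀ γ : Γ, IsSpecial (γ : SL(2, ℤ)) → χ (Additive.ofMul γ) = 0) :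
    ∃ c : SL(2, ℤ) → (SL(2, ℤ) ⧸ Γ) → ℤ, IsCoc Γ c ∧
      (∀ x, c S x + c S (S • x) = 0) ∧
      (∀ x, c (S * T) x + c (S * T) ((S * T) • x) + c (S * T) ((S * T) • (S * T) • x) = 0) ∧
      ∀ g x, ((c g x : ℤ) : ZMod n) = shap χ g x := by
  obtain ⟨vS, vU, h1, h2, h3, h4⟩ := exists_lift χ hΓ htors
  obtain ⟨c, hc, hcS, hcU⟩ := exists_cocycle hΓ vS vU h1 h2
  refine ⟨c, hc, by rw [hcS]; exact h1, by rw [hcU]; exact h2, fun g x => ?_⟩
  have hc' : IsCoc Γ (fun g x => ((c g x : ℤ) : ZMod n)) := by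
    intro g h x
    show ((c (g * h) x : ℤ) : ZMod n) = _
    rw [hc g h x, Int.cast_add]
  have := IsCoc.ext hc' (isCoc_shap χ) (by funext x; rw [hcS]; exact h3 x)
    (by funext x; rw [hcU]; exact h4 x) g
  exact congrFun this x

end Lift

/-! ### Sums over `T` -/

section SumT

variable {c : SL(2, ℤ) → (SL(2, ℤ) ⧸ Γ) → ℤ}

theorem IsCoc.apply_T (hc : IsCoc Γ c) (x : SL(2, ℤ) ⧸ Γ) :
    c T x = c (S * T) x - c S (T • x) := by
  rw [hc S T x]; ring

theorem IsCoc.pow_eq_sum (hc : IsCoc Γ c) (h : SL(2, ℤ)) (m : ℕ) (y : SL(2, ℤ) ⧸ Γ) :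
    c (h ^ m) y = ∑ i ∈ Finset.range m, c h (h ^ i • y) := by
  induction m with
  | zero => simp [hc.one]
  | succ m ih =>
    rw [pow_succ', hc, ih, Finset.sum_range_succ, add_comm]

theorem sum_coc_T [Fintype (SL(2, ℤ) ⧸ Γ)] (hc : IsCoc Γ c)
    (hS : ∀ x, c S x + c S (S • x) = 0)
    (hU : ∀ x, c (S * T) x + c (S * T) ((S * T) • x) + c (S * T) ((S * T) • (S * T) • x) = 0) :
    ∑ x, c T x = 0 := by
  have e1 : ∀ g : SL(2, ℤ), ∀ f : (SL(2, ℤ) ⧸ Γ) → ℤ, ∑ x, f (g • x) = ∑ x, f x := fun g f =>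
    Equiv.sum_comp (MulAction.toPerm g) f
  have h2 : ∑ x, c S x = 0 := by
    have h := Finset.sum_congr rfl (fun x (_ : x ∈ Finset.univ) => hS x)
    rw [Finset.sum_add_distrib, e1 S (c S), Finset.sum_const_zero] at h
    linarith
  have h3 : ∑ x, c (S * T) x = 0 := by
    have h := Finset.sum_congr rfl (fun x (_ : x ∈ Finset.univ) => hU x)
    rw [Finset.sum_add_distrib, Finset.sum_add_distrib, e1 (S * T) (c (S * T)),
      e1 (S * T) (fun x => c (S * T) ((S * T) • x)), e1 (S * T) (c (S * T)),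
      Finset.sum_const_zero] at h
    linarith
  calc ∑ x, c T x = ∑ x, (c (S * T) x - c S (T • x)) :=
        Finset.sum_congr rfl fun x _ => hc.apply_T x
    _ = 0 := by rw [Finset.sum_sub_distrib, e1 T (c S), h2, h3, sub_zero]

end SumT

/-! ### The case `Γ = Γ₀(p)` -/

section Gamma0

open CongruenceSubgroup Fermat.Agent.Lib.Gamma0Cosets ModularCurve.Period

variable (p : ℕ) [hp : Fact p.Prime]

theorem T_mem_Gamma0 (N : ℕ) : T ∈ Gamma0 N := by
  rw [Gamma0_mem]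
  simp [coe_T]

theorem T_smul_x0 (N : ℕ) : T • x0 (Gamma0 N) = x0 (Gamma0 N) :=
  smul_x0_of_mem _ (T_mem_Gamma0 N)

include hp in
theorem S_smul_x0_ne : S • x0 (Gamma0 p) ≠ x0 (Gamma0 p) := by
  intro h
  have h1 : ((S * 1 : SL(2, ℤ)) : SL(2, ℤ) ⧸ Gamma0 p) = ((1 : SL(2, ℤ)) : SL(2, ℤ) ⧸ Gamma0 p) := h
  rw [QuotientGroup.eq, inv_mul_mem_Gamma0_iff_dvd] at h1
  simp only [mul_one, coe_S, Matrix.SpecialLinearGroup.coe_one] at h1
  norm_num at h1
  have := Int.natAbs_dvd_natAbs.mpr h1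
  simp at this
  exact hp.out.one_lt.ne' this

include hp in
/-- Away from the base point, `⟨T⟩` acts transitively on `SL(2, ℤ) ⧸ Γ₀(p)`. -/
theorem exists_T_zpow_smul (x : SL(2, ℤ) ⧸ Gamma0 p) (hx : x ≠ x0 (Gamma0 p)) :
    ∃ k : ℤ, T ^ k • (S • x0 (Gamma0 p)) = x := by
  induction x using QuotientGroup.induction_on with
  | H g =>
    have hg : ¬ (p : ℤ) ∣ g 1 0 := by
      intro hdvd
      apply hx
      show ((g : SL(2, ℤ)) : SL(2, ℤ) ⧸ Gamma0 p) = ((1 : SL(2, ℤ)) : SL(2, ℤ) ⧸ Gamma0 p)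
      rw [QuotientGroup.eq, inv_mul_mem_Gamma0_iff_dvd, Matrix.SpecialLinearGroup.coe_one]
      simpa using hdvd
    have hcop : IsCoprime (g 1 0) (p : ℤ) := by
      rw [isCoprime_comm]
      exact (Nat.prime_iff_prime_int.mp hp.out).coprime_iff_not_dvd.mpr hg
    obtain ⟨u, v, huv⟩ := hcop
    refine ⟨u * g 0 0, ?_⟩
    show ((T ^ (u * g 0 0) * (S * 1) : SL(2, ℤ)) : SL(2, ℤ) ⧸ Gamma0 p) = (g : SL(2, ℤ) ⧸ Gamma0 p)
    rw [QuotientGroup.eq, inv_mul_mem_Gamma0_iff_dvd, T_zpow_mul_apply_zero_zero,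
      T_zpow_mul_apply_one_zero]
    simp only [mul_one, coe_S]
    refine ⟨-(v * g 0 0), ?_⟩
    simp
    linear_combination (g 0 0) * huv

theorem T_pow_level_smul (N : ℕ) (y : SL(2, ℤ) ⧸ Gamma0 N) : T ^ N • y = y := by
  induction y using QuotientGroup.induction_on with
  | H g =>
    rw [← zpow_natCast, MulAction.Quotient.smul_mk, smul_eq_mul, QuotientGroup.eq,
      inv_mul_mem_Gamma0_iff_dvd, T_zpow_mul_apply_zero_zero, T_zpow_mul_apply_one_zero]
    refine ⟨g 1 0 * g 1 0, ?_⟩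
    ring

theorem neg_one_mem_Gamma0 (N : ℕ) : (-1 : SL(2, ℤ)) ∈ Gamma0 N := by
  rw [Gamma0_mem]
  simp

variable {p}

include hp in
/-- If the cocycle has total `T`-sum zero and vanishes at `(T, x₀)`, then `c (T ^ p) = 0`. -/
theorem coc_T_pow_eq_zero [Fintype (SL(2, ℤ) ⧸ Gamma0 p)]
    {c : SL(2, ℤ) → (SL(2, ℤ) ⧸ Gamma0 p) → ℤ} (hc : IsCoc (Gamma0 p) c)
    (hsum : ∑ x, c T x = 0) (h0 : c T (x0 (Gamma0 p)) = 0) (y : SL(2, ℤ) ⧸ Gamma0 p) :
    c (T ^ p) y = 0 := by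
  classical
  -- invariance under `T`
  have hT : ∀ z, c (T ^ p) (T • z) = c (T ^ p) z := by
    intro z
    have h1 := hc (T ^ p) T z
    have h2 := hc T (T ^ p) z
    rw [T_pow_level_smul] at h2
    have h3 : (T ^ p * T : SL(2, ℤ)) = T * T ^ p := by rw [← pow_succ, ← pow_succ']
    rw [h3, h2] at h1
    linarith
  have hTinv : ∀ z, c (T ^ p) (T⁻¹ • z) = c (T ^ p) z := by
    intro z
    have := hT (T⁻¹ • z)
    rw [smul_inv_smul] at this
    exact this.symm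
  have hTz : ∀ (k : ℤ) z, c (T ^ p) (T ^ k • z) = c (T ^ p) z := by
    intro k
    induction k using Int.induction_on with
    | zero => intro z; simp
    | succ k ih => intro z; rw [zpow_add_one, mul_smul, ih, hT]
    | pred k ih => intro z; rw [zpow_sub_one, mul_smul, ih, hTinv]
  -- value at the base point
  have hx0 : c (T ^ p) (x0 (Gamma0 p)) = 0 := by
    rw [hc.pow_of_fixed (T_smul_x0 p), h0, smul_zero]
  -- all other values agree
  have hoth : ∀ z, z ≠ x0 (Gamma0 p) → c (T ^ p) z = c (T ^ p) (S • x0 (Gamma0 p)) := by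
    intro z hz
    obtain ⟨k, rfl⟩ := exists_T_zpow_smul p z hz
    exact hTz k _
  -- total sum
  have htot : ∑ z, c (T ^ p) z = 0 := by
    have h1 : ∀ z, c (T ^ p) z = ∑ i ∈ Finset.range p, c T (T ^ i • z) :=
      fun z => hc.pow_eq_sum T p z
    rw [Finset.sum_congr rfl fun z _ => h1 z, Finset.sum_comm]
    refine Finset.sum_eq_zero fun i _ => ?_
    rw [← hsum]
    exact Equiv.sum_comp (MulAction.toPerm (T ^ i)) (c T)
  have hsplit := Finset.add_sum_erase Finset.univ (fun z => c (T ^ p) z)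
    (Finset.mem_univ (x0 (Gamma0 p)))
  rw [htot, hx0, zero_add] at hsplit
  have hconst : ∑ z ∈ Finset.univ.erase (x0 (Gamma0 p)), c (T ^ p) z =
      (Finset.univ.erase (x0 (Gamma0 p))).card • c (T ^ p) (S • x0 (Gamma0 p)) := by
    rw [← Finset.sum_const]
    exact Finset.sum_congr rfl fun z hz => hoth z (Finset.ne_of_mem_erase hz)
  rw [hconst] at hsplit
  have hcard : (Finset.univ.erase (x0 (Gamma0 p))).card ≠ 0 := by
    apply Finset.card_ne_zero_of_mem (a := S • x0 (Gamma0 p))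
    exact Finset.mem_erase.mpr ⟨S_smul_x0_ne p, Finset.mem_univ _⟩
  have hS0 : c (T ^ p) (S • x0 (Gamma0 p)) = 0 := by
    rcases smul_eq_zero.mp hsplit with h | h
    · exact absurd h hcard
    · exact h
  by_cases hy : y = x0 (Gamma0 p)
  · rw [hy, hx0]
  · rw [hoth y hy, hS0]

include hp in
/-- A cocycle with `c (T ^ p) = 0` gives a parabolic homomorphism. -/
theorem isParabolicHom_homOfCoc {c : SL(2, ℤ) → (SL(2, ℤ) ⧸ Gamma0 p) → ℤ}
    (hc : IsCoc (Gamma0 p) c) (hTp : ∀ y, c (T ^ p) y = 0) :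
    IsParabolicHom (Gamma0 p) (homOfCoc c hc) := by
  have hp0 : p ≠ 0 := hp.out.ne_zero
  -- conjugates of powers of `T`
  have key : ∀ (δ : SL(2, ℤ)) (m : ℤ), (δ * T ^ m * δ⁻¹) • x0 (Gamma0 p) = x0 (Gamma0 p) →
      c (δ * T ^ m * δ⁻¹) (x0 (Gamma0 p)) = 0 := by
    intro δ m hfix
    set y := δ⁻¹ • x0 (Gamma0 p) with hy
    have hfy : T ^ m • y = y := by
      have h1 : T ^ m • y = δ⁻¹ • ((δ * T ^ m * δ⁻¹) • x0 (Gamma0 p)) := by
        rw [hy, ← mul_smul, ← mul_smul]; congr 1; group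
      rw [h1, hfix]
    have h1 : c (δ * T ^ m * δ⁻¹) (x0 (Gamma0 p)) = c (T ^ m) y := by
      have e1 := hc (δ * T ^ m) δ⁻¹ (x0 (Gamma0 p))
      have e2 := hc δ (T ^ m) y
      have e3 := hc δ δ⁻¹ (x0 (Gamma0 p))
      rw [mul_inv_cancel, hc.one] at e3
      rw [← hy] at e1 e3
      rw [hfy] at e2
      rw [e1, e2]
      linarith
    have h2 : (p : ℤ) • c (T ^ m) y = 0 := by
      have e1 := hc.pow_of_fixed hfy p
      have e2 := hc.zpow_of_fixed (T_pow_level_smul p y) m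
      have e3 : ((T ^ m) ^ p : SL(2, ℤ)) = (T ^ p) ^ m := by
        rw [← zpow_natCast, ← zpow_mul, ← zpow_natCast T p, ← zpow_mul, mul_comm]
      rw [e3, e2, hTp, smul_zero] at e1
      rw [natCast_zsmul]
      exact e1.symm
    rw [h1]
    rcases smul_eq_zero.mp h2 with h | h
    · exact absurd (Int.natCast_eq_zero.mp h) hp0
    · exact h
  have hneg : c (-1) (x0 (Gamma0 p)) = 0 := by
    have hfix : (-1 : SL(2, ℤ)) • x0 (Gamma0 p) = x0 (Gamma0 p) :=
      smul_x0_of_mem _ (neg_one_mem_Gamma0 p)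
    have e1 := hc.pow_of_fixed hfix 2
    rw [neg_one_sq, hc.one] at e1
    have : (2 : ℤ) * c (-1) (x0 (Gamma0 p)) = 0 := by
      rw [two_mul]; rw [two_nsmul] at e1; exact e1.symm
    linarith
  intro γ htr
  rw [homOfCoc_apply]
  obtain ⟨δ, hδ⟩ := Fermat.Agent.S21.exists_conj_upper (γ : SL(2, ℤ)) htr
  obtain ⟨m, hm⟩ := Fermat.Agent.S21.upper_eq_T_zpow _ hδ
  rcases hm with hm | hm
  · have h1 : (γ : SL(2, ℤ)) = δ * T ^ m * δ⁻¹ := by rw [← hm]; group
    rw [h1]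
    refine key δ m ?_
    rw [← h1]; exact smul_x0_of_mem _ γ.2
  · have h1 : (γ : SL(2, ℤ)) = -1 * (δ * T ^ m * δ⁻¹) := by
      have : δ * T ^ m * δ⁻¹ = -(γ : SL(2, ℤ)) := by
        have h2 : T ^ m = -(δ⁻¹ * (γ : SL(2, ℤ)) * δ) := by rw [hm, neg_neg]
        rw [h2]
        simp [mul_assoc]
      rw [this]; simp
    have hmem : δ * T ^ m * δ⁻¹ ∈ Gamma0 p := by
      have : δ * T ^ m * δ⁻¹ = -1 * (γ : SL(2, ℤ)) := by rw [h1]; simp
      rw [this]
      exact mul_mem (neg_one_mem_Gamma0 p) γ.2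
    have hfix := smul_x0_of_mem _ hmem
    rw [h1, hc, hfix, hneg, key δ m hfix, add_zero]

include hp in
/-- A cocycle satisfying the norm relations with `c T x₀ = 1`. -/
theorem exists_coc_T_one :
    ∃ c : SL(2, ℤ) → (SL(2, ℤ) ⧸ Gamma0 p) → ℤ, IsCoc (Gamma0 p) c ∧
      (∀ x, c S x + c S (S • x) = 0) ∧
      (∀ x, c (S * T) x + c (S * T) ((S * T) • x) + c (S * T) ((S * T) • (S * T) • x) = 0) ∧
      c T (x0 (Gamma0 p)) = 1 := by
  classical
  have hΓ := neg_one_mem_Gamma0 p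
  let vS : (SL(2, ℤ) ⧸ Gamma0 p) → ℤ := fun x =>
    if x = x0 (Gamma0 p) then -1 else if x = S • x0 (Gamma0 p) then 1 else 0
  have hne := S_smul_x0_ne p
  have hS : ∀ x, vS x + vS (S • x) = 0 := by
    intro x
    simp only [vS]
    by_cases h1 : x = x0 (Gamma0 p)
    · subst h1
      simp [hne]
    · by_cases h2 : x = S • x0 (Gamma0 p)
      · subst h2
        simp [hne, S_smul_S_smul hΓ]
      · have h3 : S • x ≠ x0 (Gamma0 p) := by
          intro h
          apply h2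
          rw [← h, S_smul_S_smul hΓ]
        have h4 : S • x ≠ S • x0 (Gamma0 p) := fun h => h1 (smul_left_cancel _ h)
        simp [h1, h2, h3, h4]
  obtain ⟨c, hc, hcS, hcU⟩ := exists_cocycle hΓ vS 0 hS (by intro x; simp)
  refine ⟨c, hc, by rw [hcS]; exact hS, by rw [hcU]; intro x; simp, ?_⟩
  rw [hc.apply_T, hcS, hcU, T_smul_x0]
  simp [vS]

include hp in
/-- **Parabolic lift.**  A homomorphism `χ : Γ₀(p) → ℤ/n` that kills `±1`, the parabolic and the
elliptic elements is the reduction modulo `n` of a parabolic homomorphism `Γ₀(p) → ℤ`. -/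
theorem exists_parabolic_lift {n : ℕ} (χ : Additive (Gamma0 p) →+ ZMod n)
    (htors : ∀ γ : Gamma0 p, IsSpecial (γ : SL(2, ℤ)) → χ (Additive.ofMul γ) = 0) :
    ∃ ψ : Additive (Gamma0 p) →+ ℤ, IsParabolicHom (Gamma0 p) ψ ∧
      ∀ γ : Gamma0 p, ((ψ (Additive.ofMul γ) : ℤ) : ZMod n) = χ (Additive.ofMul γ) := by
  classical
  have : NeZero p := ⟨hp.out.ne_zero⟩
  have : Fintype (SL(2, ℤ) ⧸ Gamma0 p) := Fintype.ofFinite _
  have hΓ := neg_one_mem_Gamma0 p
  obtain ⟨c1, hc1, h1S, h1U, h1χ⟩ := exists_coc_lift χ hΓ htors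
  obtain ⟨c0, hc0, h0S, h0U, h0T⟩ := exists_coc_T_one (p := p)
  set m : ℤ := c1 T (x0 (Gamma0 p)) with hm
  have hm0 : ((m : ℤ) : ZMod n) = 0 := by
    rw [hm, h1χ]
    exact (shap_x0_of_mem χ ⟨T, T_mem_Gamma0 p⟩).trans (htors ⟨T, T_mem_Gamma0 p⟩ isSpecial_T)
  let c : SL(2, ℤ) → (SL(2, ℤ) ⧸ Gamma0 p) → ℤ := fun g x => c1 g x - m * c0 g x
  have hc : IsCoc (Gamma0 p) c := by
    intro g h x
    show c1 (g * h) x - m * c0 (g * h) x = c1 g (h • x) - m * c0 g (h • x) + (c1 h x - m * c0 h x)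
    rw [hc1 g h x, hc0 g h x]; ring
  have hcS : ∀ x, c S x + c S (S • x) = 0 := by
    intro x
    show c1 S x - m * c0 S x + (c1 S (S • x) - m * c0 S (S • x)) = 0
    linear_combination h1S x - m * h0S x
  have hcU : ∀ x, c (S * T) x + c (S * T) ((S * T) • x) + c (S * T) ((S * T) • (S * T) • x) = 0 := by
    intro x
    show c1 (S * T) x - m * c0 (S * T) x + (c1 (S * T) ((S * T) • x) - m * c0 (S * T) ((S * T) • x))
      + (c1 (S * T) ((S * T) • (S * T) • x) - m * c0 (S * T) ((S * T) • (S * T) • x)) = 0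
    linear_combination h1U x - m * h0U x
  have hcT : c T (x0 (Gamma0 p)) = 0 := by
    show c1 T (x0 (Gamma0 p)) - m * c0 T (x0 (Gamma0 p)) = 0
    rw [h0T, ← hm]; ring
  have hsum := sum_coc_T hc hcS hcU
  refine ⟨homOfCoc c hc, isParabolicHom_homOfCoc hc (coc_T_pow_eq_zero hc hsum hcT), fun γ => ?_⟩
  rw [homOfCoc_apply]
  show (((c1 (γ : SL(2, ℤ)) (x0 (Gamma0 p)) - m * c0 (γ : SL(2, ℤ)) (x0 (Gamma0 p)) : ℤ)) : ZMod n) = _
  rw [Int.cast_sub, Int.cast_mul, hm0, zero_mul, sub_zero, h1χ, shap_x0_of_mem]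

include hp in
/-- The parabolic lift in the shape used by the S16 lower-bound skeleton
(`Fermat.Agent.S16.LB.exists_parabolic_lift`). -/
theorem exists_parabolic_lift_complex (n : ℕ) (ψ : Additive (Gamma0 p) →+ ZMod n)
    (hψ : ∀ γ : Gamma0 p,
      (((γ : SL(2, ℤ)) : Matrix (Fin 2) (Fin 2) ℤ).trace ^ 2 = 4 ∨
       ((γ : SL(2, ℤ)) : Matrix (Fin 2) (Fin 2) ℤ).trace ^ 2 = 1 ∨
       ((γ : SL(2, ℤ)) : Matrix (Fin 2) (Fin 2) ℤ).trace = 0) → ψ (Additive.ofMul γ) = 0) :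
    ∃ φ : Additive (Gamma0 p) →+ ℂ, φ ∈ parabolicHoms ℂ (Gamma0 p) ℂ ∧
      ∀ γ : Gamma0 p, ∃ m : ℤ, φ (Additive.ofMul γ) = (m : ℂ) ∧
        (m : ZMod n) = ψ (Additive.ofMul γ) := by
  obtain ⟨φ, hφ, hcong⟩ := exists_parabolic_lift (p := p) ψ hψ
  refine ⟨(Int.castAddHom ℂ).comp φ, ?_, fun γ => ⟨φ (Additive.ofMul γ), rfl, hcong γ⟩⟩
  rw [mem_parabolicHoms_iff]
  intro γ hγ
  show ((φ (Additive.ofMul γ) : ℤ) : ℂ) = 0
  rw [hφ γ hγ, Int.cast_zero]

end Gamma0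

end

end Fermat.Agent.S16.ShimuraLift
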